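import Fermat.Agent.SelbergCLT.Kernel
import Mathlib.Analysis.SpecialFunctions.ImproperIntegrals
import Mathlib.Analysis.SpecialFunctions.JapaneseBracket

/-!
# Integrals on vertical lines with the smoothed kernel

For `G = O ((1 + |im s|) ^ (κ - 2))` on `c ≤ re s ≤ 2` the integral of `x ^ (s + 1) G s` does not
depend on the line, and its differences are `O (h y ^ c (y / h) ^ (2 κ) / κ)`.
-/

set_option autoImplicit false

noncomputable section

namespace FA.PiltzDivisor

open Complex MeasureTheory Filter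
open FA.SelbergCLT (verticals_of_boxInt)
open FA.ExplicitFormula (boxInt boxInt_eq_zero)
open scoped Topology Real

theorem integrable_one_add_abs_rpow {r : ℝ} (hr : r < -1) :
    Integrable fun v : ℝ => (1 + |v|) ^ r := by
  have h := integrable_one_add_norm (E := ℝ) (μ := volume) (r := -r) (by simp; linarith)
  simpa using h

theorem integral_one_add_abs_rpow {κ : ℝ} (hκ : 0 < κ) :
    ∫ v : ℝ, (1 + |v|) ^ (-1 - κ) = 2 / κ := by
  rw [integral_comp_abs (f := fun v => (1 + v) ^ (-1 - κ))]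
  have hd : ∀ v ∈ Set.Ici (0 : ℝ),
      HasDerivAt (fun v => -(1 + v) ^ (-κ) / κ) ((1 + v) ^ (-1 - κ)) v := fun v hv => by
    rw [Set.mem_Ici] at hv
    refine ((((hasDerivAt_id' v).const_add 1).rpow_const
      (Or.inl (by linarith))).neg.div_const κ).congr_deriv ?_
    rw [show -κ - 1 = -1 - κ by ring]
    field_simp
  have hl : Tendsto (fun v : ℝ => -(1 + v) ^ (-κ) / κ) atTop (𝓝 0) := by
    simpa using (((tendsto_rpow_neg_atTop hκ).comp
      (tendsto_atTop_add_const_left atTop 1 tendsto_id)).neg.div_const κ)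
  have hi : IntegrableOn (fun v : ℝ => (1 + v) ^ (-1 - κ)) (Set.Ioi 0) := by
    refine ((integrable_one_add_abs_rpow (r := -1 - κ) (by linarith)).integrableOn).congr_fun
      (fun v hv => ?_) measurableSet_Ioi
    simp [abs_of_pos (Set.mem_Ioi.1 hv)]
  rw [integral_Ioi_of_hasDerivAt_of_tendsto' hd hi hl, add_zero, Real.one_rpow]
  ring

/-- `(1/2π) ∫ x ^ (w + 1) G w` on `re w = u`. -/
def lineInt (G : ℂ → ℂ) (u x : ℝ) : ℂ :=
  (1 / (2 * π)) • ∫ v : ℝ, (x : ℂ) ^ ((u : ℂ) + (v : ℂ) * I + 1) * G ((u : ℂ) + (v : ℂ) * I)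

variable {G : ℂ → ℂ} {c C κ : ℝ} (hd : ∀ w : ℂ, c ≤ w.re → DifferentiableAt ℂ G w)
  (hκ : κ ≤ 1 / 2)
  (hG : ∀ u v : ℝ, c ≤ u → u ≤ 2 → ‖G ((u : ℂ) + v * I)‖ ≤ C * (1 + |v|) ^ (κ - 2))

include hd in
theorem differentiableAt_line {x : ℝ} (hx : 0 < x) {w : ℂ} (hw : c ≤ w.re) :
    DifferentiableAt ℂ (fun w => (x : ℂ) ^ (w + 1) * G w) w :=
  ((differentiableAt_id.add_const 1).const_cpow
    (Or.inl (ofReal_ne_zero.2 hx.ne'))).mul (hd w hw)

include hd hκ hG in
theorem integrable_line {x : ℝ} (hx : 0 < x) {u : ℝ} (hu : c ≤ u) (hu2 : u ≤ 2) :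
    Integrable fun v : ℝ => (x : ℂ) ^ ((u : ℂ) + (v : ℂ) * I + 1) *
      G ((u : ℂ) + (v : ℂ) * I) := by
  refine (((integrable_one_add_abs_rpow (r := κ - 2) (by linarith)).const_mul C).const_mul
    (x ^ (u + 1))).mono' (Continuous.aestronglyMeasurable
      (continuous_iff_continuousAt.2 fun v => ?_)) (Eventually.of_forall fun v => ?_)
  · exact ContinuousAt.comp (g := fun w : ℂ => (x : ℂ) ^ (w + 1) * G w)
      (f := fun v : ℝ => (u : ℂ) + (v : ℂ) * I)
      (differentiableAt_line hd hx (by simpa using hu)).continuousAt (by fun_prop)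
  · rw [norm_mul, norm_cpow_eq_rpow_re_of_pos hx]
    simp only [add_re, ofReal_re, mul_re, I_re, mul_zero, ofReal_im, I_im, mul_one, sub_self,
      add_zero, one_re]
    exact mul_le_mul_of_nonneg_left (hG u v hu hu2) (by positivity)

include hd hκ hG in
theorem lineInt_shift {x : ℝ} (hx : 1 ≤ x) (hc2 : c ≤ 2) :
    lineInt G 2 x = lineInt G c x := by
  have hx0 : 0 < x := by linarith
  obtain ⟨F, hF⟩ : ∃ F : ℂ → ℂ, F = fun w => (x : ℂ) ^ (w + 1) * G w := ⟨_, rfl⟩
  have hl : Integrable fun v : ℝ => F ((c : ℂ) + (v : ℂ) * I) := by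
    rw [hF]
    exact integrable_line hd hκ hG hx0 le_rfl hc2
  have hr : Integrable fun v : ℝ => F (((2 : ℝ) : ℂ) + (v : ℂ) * I) := by
    rw [hF]
    exact integrable_line hd hκ hG hx0 hc2 le_rfl
  have hbox : ∀ᶠ R in atTop, boxInt F c 2 R = 0 := by
    filter_upwards [eventually_ge_atTop 0] with R hR
    exact boxInt_eq_zero hc2 hR fun s hs _ => hF ▸ differentiableAt_line hd hx0 hs.1
  have hhor : ∀ᶠ R in atTop, ∀ u ∈ Set.uIcc c 2,
      ‖F ((u : ℂ) + ((-R : ℝ) : ℂ) * I)‖ ≤ x ^ (3 : ℝ) * |C| / R ∧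
        ‖F ((u : ℂ) + (R : ℂ) * I)‖ ≤ x ^ (3 : ℝ) * |C| / R := by
    filter_upwards [eventually_ge_atTop 1] with R hR u hu
    rw [Set.uIcc_of_le hc2] at hu
    have key : ∀ v : ℝ, |v| = R → ‖F ((u : ℂ) + (v : ℂ) * I)‖ ≤ x ^ (3 : ℝ) * |C| / R :=
      fun v hv => by
      rw [hF, norm_mul, norm_cpow_eq_rpow_re_of_pos hx0]
      simp only [add_re, ofReal_re, mul_re, I_re, mul_zero, ofReal_im, I_im, mul_one, sub_self,
        add_zero, one_re]
      refine (mul_le_mul (Real.rpow_le_rpow_of_exponent_le hx (show u + 1 ≤ 3 by linarith [hu.2]))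
        ((hG u v hu.1 (by linarith [hu.2])).trans (mul_le_mul (le_abs_self C) ?_
          (by positivity) (abs_nonneg C))) (norm_nonneg _) (by positivity)).trans
        (le_of_eq (show x ^ (3 : ℝ) * (|C| * R⁻¹) = _ by ring))
      rw [hv, ← Real.rpow_neg_one]
      exact (Real.rpow_le_rpow_of_exponent_le (by linarith) (by linarith)).trans
        (Real.rpow_le_rpow_of_nonpos (by linarith) (by linarith) (by norm_num))
    exact ⟨key _ (by rw [abs_neg, abs_of_nonneg (by linarith)]),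
      key _ (abs_of_nonneg (by linarith))⟩
  have h := verticals_of_boxInt (F := F) hl hr hbox (tendsto_const_nhds.div_atTop tendsto_id) hhor
  rw [mul_eq_zero, sub_eq_zero] at h
  rw [lineInt, lineInt]
  congr 1
  subst hF
  exact h.resolve_left I_ne_zero

include hd hκ hG in
theorem lineInt_diff (hc : 1 / 2 ≤ c) (hc1 : c ≤ 1) (hκ0 : 0 < κ) (hC : 0 ≤ C) {y h : ℝ}
    (hy : 1 ≤ y) (hh : 0 < h) (hhy : h ≤ y) :
    ‖lineInt G c (y + h) - lineInt G c y‖ ≤
      16 * C / κ * h * (y ^ c * (y / h) ^ (2 * κ)) := by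
  have hy0 : 0 < y := by linarith
  have hp : ∀ v : ℝ, ‖(((y + h : ℝ) : ℂ) ^ ((c : ℂ) + (v : ℂ) * I + 1) -
      (y : ℂ) ^ ((c : ℂ) + (v : ℂ) * I + 1)) * G ((c : ℂ) + (v : ℂ) * I)‖ ≤
      8 * C * h * (y ^ c * (y / h) ^ (2 * κ)) * (1 + |v|) ^ (-1 - κ) := fun v => by
    obtain ⟨w, hw⟩ : ∃ w : ℂ, w = (c : ℂ) + (v : ℂ) * I := ⟨_, rfl⟩
    have hwre : w.re = c := by simp [hw]
    have h2c : ∀ r : ℝ, 0 < r → r ≤ 2 * y → r ^ c ≤ 2 * y ^ c := fun r hr hr2 => by
      refine (Real.rpow_le_rpow hr.le hr2 (by linarith)).trans ?_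
      rw [Real.mul_rpow two_pos.le hy0.le]
      exact mul_le_mul_of_nonneg_right (Real.rpow_le_self_of_one_le one_le_two hc1)
        (by positivity)
    have hA : ‖((y + h : ℝ) : ℂ) ^ (w + 1) - (y : ℂ) ^ (w + 1)‖ ≤ 8 * y ^ c * y := by
      refine (norm_sub_le _ _).trans ?_
      rw [norm_cpow_eq_rpow_re_of_pos (by linarith), norm_cpow_eq_rpow_re_of_pos hy0, add_re,
        one_re, hwre, Real.rpow_add_one (by linarith), Real.rpow_add_one hy0.ne']
      have := mul_le_mul (h2c (y + h) (by linarith) (by linarith)) (show y + h ≤ 2 * y by linarith)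
        (by linarith) (by positivity)
      nlinarith [mul_nonneg (Real.rpow_nonneg hy0.le c) hy0.le]
    have hB : ‖((y + h : ℝ) : ℂ) ^ (w + 1) - (y : ℂ) ^ (w + 1)‖ ≤
        8 * y ^ c * h * (1 + |v|) := by
      have hd : ∀ r ∈ Set.Icc y (y + h), HasDerivWithinAt (fun r : ℝ => (r : ℂ) ^ (w + 1))
          ((w + 1) * (r : ℂ) ^ w) (Set.Icc y (y + h)) r := fun r hr => by
        have h1 : w + 1 ≠ 0 := fun e => by
          have := congrArg Complex.re e
          simp [hwre] at this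
          linarith
        simpa using ((hasDerivAt_ofReal_cpow_const (show r ≠ 0 by linarith [hr.1]) h1)
          ).hasDerivWithinAt
      have hbd : ∀ r ∈ Set.Icc y (y + h), ‖(w + 1) * (r : ℂ) ^ w‖ ≤ 8 * y ^ c * (1 + |v|) :=
        fun r hr => by
        rw [norm_mul, norm_cpow_eq_rpow_re_of_pos (by linarith [hr.1]), hwre]
        have hn : ‖w + 1‖ ≤ c + 1 + |v| := by
          refine (norm_le_abs_re_add_abs_im _).trans (le_of_eq ?_)
          rw [show (w + 1).re = c + 1 by simp [hwre], show (w + 1).im = v by simp [hw],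
            abs_of_pos (show 0 < c + 1 by linarith)]
        refine (mul_le_mul hn (h2c r (by linarith [hr.1]) (by linarith [hr.2])) (by
            exact Real.rpow_nonneg (by linarith [hr.1]) _) (by positivity)).trans ?_
        · nlinarith [mul_nonneg (Real.rpow_nonneg hy0.le c) (abs_nonneg v),
            Real.rpow_nonneg hy0.le c]
      have := (convex_Icc y (y + h)).norm_image_sub_le_of_norm_hasDerivWithin_le hd hbd
        (Set.left_mem_Icc.2 (by linarith)) (Set.right_mem_Icc.2 (by linarith))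
      refine this.trans (le_of_eq ?_)
      rw [add_sub_cancel_left, Real.norm_of_nonneg hh.le]
      ring
    obtain ⟨m, hm⟩ : ∃ m, m = min (1 + |v|) (y / h) := ⟨_, rfl⟩
    have hm0 : 0 < m := hm ▸ lt_min (by positivity) (by positivity)
    have hAB : ‖((y + h : ℝ) : ℂ) ^ (w + 1) - (y : ℂ) ^ (w + 1)‖ ≤ 8 * y ^ c * h * m := by
      rcases le_total (1 + |v|) (y / h) with hle | hle
      · rw [hm, min_eq_left hle]; exact hB
      · rw [hm, min_eq_right hle]
        refine hA.trans (le_of_eq ?_)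
        field_simp
    have hmin : m ≤ (y / h) ^ (2 * κ) * (1 + |v|) ^ (1 - 2 * κ) := by
      calc m = m ^ (2 * κ) * m ^ (1 - 2 * κ) := by
            rw [← Real.rpow_add hm0, show 2 * κ + (1 - 2 * κ) = 1 by ring, Real.rpow_one]
        _ ≤ _ := mul_le_mul (Real.rpow_le_rpow hm0.le (hm ▸ min_le_right _ _) (by linarith))
            (Real.rpow_le_rpow hm0.le (hm ▸ min_le_left _ _) (by linarith)) (by positivity)
            (by positivity)
    rw [← hw, norm_mul]
    refine (mul_le_mul (hAB.trans (mul_le_mul_of_nonneg_left hmin (by positivity)))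
      (hw ▸ hG c v le_rfl (by linarith)) (norm_nonneg _) (by positivity)).trans
      (le_of_eq ?_)
    rw [show (-1 - κ) = (1 - 2 * κ) + (κ - 2) by ring, Real.rpow_add (by positivity)]
    ring
  rw [lineInt, lineInt, ← smul_sub, ← integral_sub (integrable_line hd hκ hG (by linarith)
    le_rfl (by linarith)) (integrable_line hd hκ hG hy0 le_rfl (by linarith)), norm_smul,
    Real.norm_of_nonneg (by positivity)]
  simp only [← sub_mul]
  refine (mul_le_mul_of_nonneg_left (norm_integral_le_of_norm_le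
    ((integrable_one_add_abs_rpow (r := -1 - κ) (by linarith)).const_mul _)
    (Eventually.of_forall hp)) (by positivity)).trans ?_
  rw [integral_const_mul, integral_one_add_abs_rpow hκ0]
  refine (mul_le_of_le_one_left (by positivity) ?_).trans (le_of_eq (by ring))
  rw [div_le_one (by positivity)]
  linarith [Real.pi_gt_three]

end FA.PiltzDivisor

end
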