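import Mathlib.Analysis.MellinInversion
import Mathlib.Analysis.SpecialFunctions.Integrals.Basic
import Mathlib.Analysis.SpecialFunctions.ImproperIntegrals
import Mathlib.Analysis.SpecialFunctions.Log.Deriv
import Mathlib.Analysis.SpecialFunctions.Pow.Asymptotics

/-!
# The Mellin transforms of the powers of the logarithm

On `t ≥ 1` the transform of `log t ^ m` is `m ! / (-s) ^ (m + 1)` for `re s < 0`; inverted, a pole
of order `m + 1` at `1` against `x ^ (w + 1)` gives `x ^ 2 log x ^ m / m !`.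
-/

set_option autoImplicit false

noncomputable section

namespace FA.PiltzDivisor

open Complex MeasureTheory Filter Asymptotics Set
open scoped Topology Real Nat

/-- `log t ^ m` on `t ≥ 1`. -/
def upLog (m : ℕ) : ℝ → ℂ :=
  (Ici (1 : ℝ)).indicator fun t => ((Real.log (max t 1) ^ m : ℝ) : ℂ)

theorem upLog_of_le {m : ℕ} {t : ℝ} (h : 1 ≤ t) : upLog m t = ((Real.log t ^ m : ℝ) : ℂ) := by
  rw [upLog, indicator_of_mem (mem_Ici.2 h), max_eq_left h]

theorem upLog_of_lt {m : ℕ} {t : ℝ} (h : t < 1) : upLog m t = 0 :=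
  indicator_of_notMem (fun hh => absurd (mem_Ici.1 hh) h.not_ge) _

theorem upLog_locallyIntegrableOn (m : ℕ) : LocallyIntegrableOn (upLog m) (Ioi 0) :=
  ((Continuous.locallyIntegrable (continuous_ofReal.comp
    ((Real.continuousOn_log.comp_continuous (continuous_id.max continuous_const)
      fun t => (zero_lt_one.trans_le (le_max_right t 1)).ne').pow m))).indicator
        measurableSet_Ici).locallyIntegrableOn _

theorem upLog_isBigO_top (m : ℕ) {a : ℝ} (ha : a < 0) :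
    upLog m =O[atTop] fun t : ℝ => t ^ (-a) := by
  refine IsBigO.of_bound 1 ?_
  filter_upwards [(isLittleO_log_rpow_rpow_atTop (m : ℝ) (neg_pos.2 ha)).def one_pos,
    eventually_ge_atTop 1] with t ht h1
  rw [upLog_of_le h1, Complex.norm_real]
  rwa [Real.rpow_natCast] at ht

theorem upLog_isBigO_bot (m : ℕ) (b : ℝ) :
    upLog m =O[𝓝[>] (0 : ℝ)] fun t : ℝ => t ^ (-b) := by
  refine (isBigO_zero _ _).congr' ?_ EventuallyEq.rfl
  filter_upwards [nhdsWithin_le_nhds (Iio_mem_nhds one_pos)] with t ht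
  rw [upLog_of_lt ht]

theorem upLog_convergent (m : ℕ) {s : ℂ} (hs : s.re < 0) : MellinConvergent (upLog m) s :=
  mellinConvergent_of_isBigO_rpow (a := s.re / 2) (b := s.re - 1) (upLog_locallyIntegrableOn m)
    (upLog_isBigO_top m (by linarith)) (by linarith) (upLog_isBigO_bot m _) (by linarith)

theorem mellin_upLog : ∀ (m : ℕ) {s : ℂ}, s.re < 0 →
    mellin (upLog m) s = (m ! : ℂ) / (-s) ^ (m + 1)
  | 0, s, hs => by
    have e : upLog 0 = fun t => (Ioc (0 : ℝ) 1).indicator (fun _ => (1 : ℂ)) t⁻¹ := by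
      funext t
      rcases lt_or_ge t 1 with h | h
      · rw [upLog_of_lt h, indicator_of_notMem]
        rintro ⟨h1, h2⟩
        rw [inv_pos] at h1
        rw [inv_le_one₀ h1] at h2
        linarith
      · rw [upLog_of_le h, indicator_of_mem (show t⁻¹ ∈ Ioc (0 : ℝ) 1 from
          ⟨inv_pos.2 (by linarith), inv_le_one_of_one_le₀ h⟩)]
        simp
    rw [e, mellin_comp_inv, (hasMellin_one_Ioc (s := -s) (by rw [neg_re]; linarith)).2]
    simp
  | m + 1, s, hs => by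
    have hd := (mellin_hasDerivAt_of_isBigO_rpow (a := s.re / 2) (b := s.re - 1)
      (upLog_locallyIntegrableOn m) (upLog_isBigO_top m (by linarith)) (by linarith)
      (upLog_isBigO_bot m _) (by linarith : s.re - 1 < s.re)).2
    have e : (fun t => Real.log t • upLog m t) = upLog (m + 1) := by
      funext t
      rcases lt_or_ge t 1 with h | h
      · rw [upLog_of_lt h, upLog_of_lt h, smul_zero]
      · rw [upLog_of_le h, upLog_of_le h, Complex.real_smul]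
        push_cast
        ring
    rw [e] at hd
    have hev : mellin (upLog m) =ᶠ[𝓝 s] fun z => (m ! : ℂ) / (-z) ^ (m + 1) := by
      filter_upwards [(isOpen_lt Complex.continuous_re continuous_const).mem_nhds hs] with z hz
      exact mellin_upLog m hz
    have hs0 : -s ≠ 0 := fun h => by
      rw [neg_eq_zero] at h
      rw [h, zero_re] at hs
      exact lt_irrefl _ hs
    have hd' : HasDerivAt (fun z : ℂ => (m ! : ℂ) / (-z) ^ (m + 1))
        (((m + 1) ! : ℕ) / (-s) ^ (m + 1 + 1)) s := by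
      refine ((hasDerivAt_const s (m ! : ℂ)).div ((hasDerivAt_neg s).fun_pow (m + 1))
        (pow_ne_zero _ hs0)).congr_deriv ?_
      rw [Nat.factorial_succ, Nat.add_sub_cancel]
      push_cast
      field_simp
      ring
    exact (hd.congr_of_eventuallyEq hev.symm).unique hd'

theorem mellinInv_neg_one (F : ℂ → ℂ) {x : ℝ} (hx : 0 < x) :
    mellinInv (-1) F x = (1 / (2 * π)) • ∫ v : ℝ,
      (x : ℂ) ^ (((2 : ℝ) : ℂ) + (v : ℂ) * I + 1) / (x : ℂ) ^ (2 : ℕ) *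
        F (1 - (((2 : ℝ) : ℂ) + (v : ℂ) * I)) := by
  rw [mellinInv, ← integral_neg_eq_self fun v : ℝ =>
    (x : ℂ) ^ (-(((-1 : ℝ) : ℂ) + (v : ℂ) * I)) • F (((-1 : ℝ) : ℂ) + (v : ℂ) * I)]
  congr 1
  refine integral_congr_ae (Eventually.of_forall fun v => ?_)
  simp only [smul_eq_mul]
  rw [show ((-1 : ℝ) : ℂ) + ((-v : ℝ) : ℂ) * I = 1 - (((2 : ℝ) : ℂ) + (v : ℂ) * I) by
      push_cast; ring,
    show ((2 : ℝ) : ℂ) + (v : ℂ) * I + 1 = -(1 - (((2 : ℝ) : ℂ) + (v : ℂ) * I)) + (2 : ℕ) by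
      push_cast; ring,
    cpow_add _ _ (ofReal_ne_zero.2 hx.ne'), cpow_natCast,
    mul_div_cancel_right₀ _ (pow_ne_zero _ (ofReal_ne_zero.2 hx.ne'))]

theorem line_integrable_inv_sq {F : ℝ → ℂ} {C : ℝ} (hF : Continuous F)
    (h : ∀ v, ‖F v‖ ≤ C / (1 + v ^ 2)) : Integrable F := by
  refine (integrable_inv_one_add_sq.const_mul C).mono' hF.aestronglyMeasurable
    (Eventually.of_forall fun v => (h v).trans (le_of_eq ?_))
  rw [div_eq_mul_inv]

theorem one_add_sq_le_normSq (y : ℝ) {a : ℝ} (ha : 1 ≤ a) :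
    1 + y ^ 2 ≤ ‖(a : ℂ) + (y : ℂ) * I‖ ^ 2 := by
  rw [Complex.sq_norm, Complex.normSq_apply]
  simp
  nlinarith

/-- **A pole of order at least two.** -/
theorem upLog_inversion {m : ℕ} (hm : 1 ≤ m) {x : ℝ} (hx : 1 < x) :
    (1 / (2 * π)) • ∫ v : ℝ, (x : ℂ) ^ (((2 : ℝ) : ℂ) + (v : ℂ) * I + 1) /
      (((2 : ℝ) : ℂ) + (v : ℂ) * I - 1) ^ (m + 1) =
      ((x ^ 2 * Real.log x ^ m / m ! : ℝ) : ℂ) := by
  have hx0 : 0 < x := by linarith
  have hval : ∀ y : ℝ, mellin (upLog m) (((-1 : ℝ) : ℂ) + y * I) =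
      (m ! : ℂ) / (-(((-1 : ℝ) : ℂ) + y * I)) ^ (m + 1) := fun y => mellin_upLog m (by simp)
  have hne : ∀ y : ℝ, -(((-1 : ℝ) : ℂ) + y * I) ≠ 0 := fun y h => by
    simpa using congrArg Complex.re h
  have hV : VerticalIntegrable (mellin (upLog m)) (-1) := by
    show Integrable fun y : ℝ => mellin (upLog m) (((-1 : ℝ) : ℂ) + y * I)
    simp only [hval]
    refine line_integrable_inv_sq (C := (m ! : ℝ)) (continuous_const.div (by fun_prop)
      fun y => pow_ne_zero _ (hne y)) fun y => ?_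
    rw [norm_div, norm_pow, Complex.norm_natCast]
    refine div_le_div_of_nonneg_left (Nat.cast_nonneg _) (by positivity) ?_
    rw [show -(((-1 : ℝ) : ℂ) + (y : ℂ) * I) = ((1 : ℝ) : ℂ) + ((-y : ℝ) : ℂ) * I by
      push_cast; ring, show 1 + y ^ 2 = 1 + (-y) ^ 2 by ring]
    refine (one_add_sq_le_normSq (-y) le_rfl).trans (pow_le_pow_right₀ ?_ (by omega))
    simpa using Complex.abs_re_le_norm (((1 : ℝ) : ℂ) + ((-y : ℝ) : ℂ) * I)
  have hcont : ContinuousAt (upLog m) x := by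
    refine ((Complex.continuous_ofReal.continuousAt).comp
      ((Real.continuousAt_log hx0.ne').pow m)).congr ?_
    filter_upwards [Ioi_mem_nhds hx] with t ht
    rw [upLog_of_le (le_of_lt ht)]
    rfl
  have h := mellinInv_mellin_eq (-1) (upLog m) hx0 (upLog_convergent m (by simp)) hV hcont
  rw [mellinInv_neg_one _ hx0, upLog_of_le hx.le] at h
  have hfac : (m ! : ℂ) ≠ 0 := Nat.cast_ne_zero.2 m.factorial_ne_zero
  have e : ∀ v : ℝ, (x : ℂ) ^ (((2 : ℝ) : ℂ) + (v : ℂ) * I + 1) / (x : ℂ) ^ (2 : ℕ) *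
      mellin (upLog m) (1 - (((2 : ℝ) : ℂ) + (v : ℂ) * I)) =
      ((m ! : ℂ) / (x : ℂ) ^ (2 : ℕ)) * ((x : ℂ) ^ (((2 : ℝ) : ℂ) + (v : ℂ) * I + 1) /
        (((2 : ℝ) : ℂ) + (v : ℂ) * I - 1) ^ (m + 1)) := fun v => by
    rw [mellin_upLog m (by simp), neg_sub]
    ring
  simp only [e] at h
  rw [integral_const_mul, Complex.real_smul] at h
  have hxc : (x : ℂ) ^ (2 : ℕ) ≠ 0 := pow_ne_zero _ (ofReal_ne_zero.2 hx0.ne')
  rw [Complex.real_smul]
  push_cast at h ⊢
  obtain ⟨Jv, hJv⟩ : ∃ Jv : ℂ, Jv = ∫ a : ℝ,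
      (x : ℂ) ^ ((2 : ℂ) + (a : ℂ) * I + 1) / ((2 : ℂ) + (a : ℂ) * I - 1) ^ (m + 1) := ⟨_, rfl⟩
  rw [← hJv] at h ⊢
  rw [eq_div_iff hfac, ← h]
  have hxc' : (x : ℂ) ≠ 0 := ofReal_ne_zero.2 hx0.ne'
  field_simp

/-- `1 - t⁻²` on `t ≥ 1`. -/
def upPair (t : ℝ) : ℂ := upLog 0 t - (Ici (1 : ℝ)).indicator (fun t => ((t : ℂ) ^ (2 : ℂ))⁻¹) t

theorem hasMellin_upPair {s : ℂ} (hs : s.re < 0) :
    HasMellin upPair s (1 / (-s) - 1 / (2 - s)) := by
  have e : (Ici (1 : ℝ)).indicator (fun t : ℝ => ((t : ℂ) ^ (2 : ℂ))⁻¹) =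
      fun t => (Ioc (0 : ℝ) 1).indicator (fun t : ℝ => (t : ℂ) ^ (2 : ℂ)) t⁻¹ := by
    funext t
    rcases lt_or_ge t 1 with h | h
    · rw [indicator_of_notMem (fun hh => absurd (mem_Ici.1 hh) h.not_ge), indicator_of_notMem]
      rintro ⟨h1, h2⟩
      rw [inv_pos] at h1
      rw [inv_le_one₀ h1] at h2
      linarith
    · rw [indicator_of_mem (mem_Ici.2 h),
        indicator_of_mem (show t⁻¹ ∈ Ioc (0 : ℝ) 1 from
          ⟨inv_pos.2 (by linarith), inv_le_one_of_one_le₀ h⟩), ofReal_inv,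
        show (2 : ℂ) = ((2 : ℕ) : ℂ) by norm_num, cpow_natCast, cpow_natCast, inv_pow]
  have hB : HasMellin ((Ici (1 : ℝ)).indicator fun t : ℝ => ((t : ℂ) ^ (2 : ℂ))⁻¹) s
      (1 / (2 - s)) := by
    have h := hasMellin_cpow_Ioc 2 (s := -s) (by simp; linarith)
    rw [e]
    refine ⟨?_, by rw [mellin_comp_inv, h.2]; ring⟩
    have h' := (MellinConvergent.comp_rpow (f := (Ioc (0 : ℝ) 1).indicator
      fun t : ℝ => (t : ℂ) ^ (2 : ℂ)) (s := s) (a := -1) (by norm_num)).2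
    simp only [Real.rpow_neg_one, ofReal_neg, ofReal_one, div_neg, div_one] at h'
    exact h' h.1
  have h := hasMellin_sub (upLog_convergent 0 hs) hB.1
  refine ⟨h.1, h.2.trans ?_⟩
  rw [mellin_upLog 0 hs, hB.2]
  simp

/-- **The simple pole**, paired with one at `-1`. -/
theorem upPair_inversion {x : ℝ} (hx : 1 < x) :
    (1 / (2 * π)) • ∫ v : ℝ, (x : ℂ) ^ (((2 : ℝ) : ℂ) + (v : ℂ) * I + 1) *
      (1 / (((2 : ℝ) : ℂ) + (v : ℂ) * I - 1) - 1 / (((2 : ℝ) : ℂ) + (v : ℂ) * I + 1)) =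
      ((x ^ 2 - 1 : ℝ) : ℂ) := by
  have hx0 : 0 < x := by linarith
  have hval : ∀ y : ℝ, mellin upPair (((-1 : ℝ) : ℂ) + y * I) =
      1 / (-(((-1 : ℝ) : ℂ) + y * I)) - 1 / (2 - (((-1 : ℝ) : ℂ) + y * I)) := fun y =>
    (hasMellin_upPair (by simp)).2
  have hne : ∀ y : ℝ, -(((-1 : ℝ) : ℂ) + y * I) ≠ 0 := fun y h => by
    simpa using congrArg Complex.re h
  have hne' : ∀ y : ℝ, (2 : ℂ) - (((-1 : ℝ) : ℂ) + y * I) ≠ 0 := fun y h => by
    have := congrArg Complex.re h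
    simp at this
    linarith
  have hV : VerticalIntegrable (mellin upPair) (-1) := by
    show Integrable fun y : ℝ => mellin upPair (((-1 : ℝ) : ℂ) + y * I)
    simp only [hval]
    refine line_integrable_inv_sq (C := 2) ((continuous_const.div (by fun_prop) hne).sub
      (continuous_const.div (by fun_prop) hne')) fun y => ?_
    rw [div_sub_div _ _ (hne y) (hne' y), norm_div, norm_mul,
      show (1 : ℂ) * (2 - (((-1 : ℝ) : ℂ) + y * I)) - -(((-1 : ℝ) : ℂ) + y * I) * 1 = 2 by ring,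
      Complex.norm_two,
      show -(((-1 : ℝ) : ℂ) + (y : ℂ) * I) = ((1 : ℝ) : ℂ) + ((-y : ℝ) : ℂ) * I by
        push_cast; ring,
      show (2 : ℂ) - (((-1 : ℝ) : ℂ) + (y : ℂ) * I) = ((3 : ℝ) : ℂ) + ((-y : ℝ) : ℂ) * I by
        push_cast; ring]
    refine div_le_div_of_nonneg_left two_pos.le (by positivity) ?_
    have h1 := one_add_sq_le_normSq (-y) (a := 1) le_rfl
    have h3 := one_add_sq_le_normSq (-y) (a := 3) (by norm_num)
    rw [neg_sq] at h1 h3
    rw [← pow_le_pow_iff_left₀ (by positivity) (by positivity) two_ne_zero, mul_pow, sq (1 + y ^ 2)]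
    exact mul_le_mul h1 h3 (by positivity) (by positivity)
  have hcont : ContinuousAt upPair x := by
    refine (show ContinuousAt (fun t : ℝ => 1 - ((t : ℂ) ^ (2 : ℕ))⁻¹) x from
      continuousAt_const.sub ((Complex.continuous_ofReal.continuousAt.pow 2).inv₀
        (pow_ne_zero _ (ofReal_ne_zero.2 hx0.ne')))).congr ?_
    filter_upwards [Ioi_mem_nhds hx] with t ht
    rw [upPair, upLog_of_le (le_of_lt ht), indicator_of_mem (mem_Ici.2 (le_of_lt ht)),
      show (2 : ℂ) = ((2 : ℕ) : ℂ) by norm_num, cpow_natCast]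
    simp
  have h := mellinInv_mellin_eq (-1) upPair hx0 (hasMellin_upPair (by simp)).1 hV hcont
  rw [mellinInv_neg_one _ hx0, upPair, upLog_of_le hx.le, indicator_of_mem (mem_Ici.2 hx.le),
    show (2 : ℂ) = ((2 : ℕ) : ℂ) by norm_num, cpow_natCast] at h
  have e : ∀ v : ℝ, (x : ℂ) ^ (((2 : ℝ) : ℂ) + (v : ℂ) * I + 1) / (x : ℂ) ^ (2 : ℕ) *
      mellin upPair (1 - (((2 : ℝ) : ℂ) + (v : ℂ) * I)) =
      ((x : ℂ) ^ (2 : ℕ))⁻¹ * ((x : ℂ) ^ (((2 : ℝ) : ℂ) + (v : ℂ) * I + 1) *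
        (1 / (((2 : ℝ) : ℂ) + (v : ℂ) * I - 1) - 1 / (((2 : ℝ) : ℂ) + (v : ℂ) * I + 1))) :=
      fun v => by
    rw [(hasMellin_upPair (by simp)).2]
    ring
  simp only [e] at h
  rw [integral_const_mul, Complex.real_smul, mul_left_comm] at h
  have hxc : (x : ℂ) ^ (2 : ℕ) ≠ 0 := pow_ne_zero _ (ofReal_ne_zero.2 hx0.ne')
  rw [inv_mul_eq_iff_eq_mul₀ hxc] at h
  rw [Complex.real_smul, h]
  push_cast
  rw [pow_zero, mul_sub, mul_one, mul_inv_cancel₀ hxc]

end FA.PiltzDivisor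

end
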