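import Mathlib.NumberTheory.LSeries.Dirichlet
import Mathlib.NumberTheory.LSeries.RiemannZeta
import Mathlib.NumberTheory.Harmonic.ZetaAsymp
import Mathlib.NumberTheory.ArithmeticFunction.Misc

/-!
# The divisor functions of Piltz

`d_k`, the `k`-fold Dirichlet convolution of the constant one, has the series `ζ (s) ^ k`; the
principal part of `ζ (s) ^ k / (s (s + 1))` at `1`.
-/

set_option autoImplicit false

noncomputable section

namespace FA.PiltzDivisor

open Finset Complex
open scoped ArithmeticFunction.zeta LSeries.notation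

/-- `d_k n`: the number of ways of writing `n` as an ordered product of `k` positive factors. -/
def piltz (k n : ℕ) : ℝ := (((ζ ^ k : ArithmeticFunction ℕ) n : ℕ) : ℝ)

/-- `∑_{n ≤ x} d_k n`. -/
def piltzSum (k : ℕ) (x : ℝ) : ℝ := ∑ n ∈ Icc 1 ⌊x⌋₊, piltz k n

theorem piltz_nonneg (k n : ℕ) : 0 ≤ piltz k n := Nat.cast_nonneg _

theorem piltz_two (n : ℕ) : piltz 2 n = n.divisors.card := by
  rw [piltz, sq, ← ArithmeticFunction.sigma_zero_apply, ← ArithmeticFunction.zeta_mul_pow_eq_sigma,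
    ArithmeticFunction.pow_zero_eq_zeta]

theorem piltzSum_nonneg (k : ℕ) (x : ℝ) : 0 ≤ piltzSum k x := sum_nonneg fun n _ => piltz_nonneg k n

theorem piltzSum_mono (k : ℕ) : Monotone (piltzSum k) := fun _ _ h =>
  sum_le_sum_of_subset_of_nonneg (Icc_subset_Icc_right (Nat.floor_mono h))
    fun n _ _ => piltz_nonneg k n

/-- `∑ d_k n / n ^ s = ζ (s) ^ k`. -/
theorem lseries_piltz (k : ℕ) {s : ℂ} (hs : 1 < s.re) :
    LSeriesSummable (fun n => (piltz k n : ℂ)) s ∧
      LSeries (fun n => (piltz k n : ℂ)) s = riemannZeta s ^ k := by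
  have e : ∀ j, (fun n => (piltz j n : ℂ)) =
      fun n => ((ζ ^ j : ArithmeticFunction ℕ) : ArithmeticFunction ℂ) n := fun j => by
    funext n
    simp [piltz]
  rw [e]
  induction k with
  | zero =>
    have h1 : (fun n => ((ζ ^ 0 : ArithmeticFunction ℕ) : ArithmeticFunction ℂ) n) = δ := by
      simp only [pow_zero, ArithmeticFunction.natCoe_one]
      exact ArithmeticFunction.one_eq_delta
    rw [h1]
    refine ⟨summable_of_ne_finset_zero (s := {1}) fun n hn => ?_, by
      rw [LSeries_delta, Pi.one_apply, pow_zero]⟩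
    rw [LSeries.term_delta, if_neg (by simpa using hn)]
  | succ j ih =>
    have hz : LSeriesSummable (fun n => ((ζ : ArithmeticFunction ℕ) : ArithmeticFunction ℂ) n) s ∧
        LSeries (fun n => ((ζ : ArithmeticFunction ℕ) : ArithmeticFunction ℂ) n) s =
          riemannZeta s := by
      simp only [ArithmeticFunction.natCoe_apply]
      exact ⟨ArithmeticFunction.LSeriesSummable_zeta_iff.2 hs,
        ArithmeticFunction.LSeries_zeta_eq_riemannZeta hs⟩
    simp only [pow_succ, ArithmeticFunction.natCoe_mul]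
    exact ⟨ArithmeticFunction.LSeriesSummable_mul ih.1 hz.1,
      by rw [ArithmeticFunction.LSeries_mul' ih.1 hz.1, ih.2, hz.2]⟩

/-- `∑_{n ≤ x} d_k n = O (x ^ σ)` for every `σ > 1`. -/
theorem exists_piltzSum_le (k : ℕ) {σ : ℝ} (hσ : 1 < σ) :
    ∃ C, 0 ≤ C ∧ ∀ x : ℝ, 0 ≤ x → piltzSum k x ≤ C * x ^ σ := by
  have hS := ((lseries_piltz k (s := (σ : ℂ)) (by simpa using hσ)).1).norm
  refine ⟨∑' n, ‖LSeries.term (fun n => (piltz k n : ℂ)) (σ : ℂ) n‖,
    tsum_nonneg fun n => norm_nonneg _, fun x hx => ?_⟩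
  refine (sum_le_sum fun n hn => ?_).trans ((sum_mul (Icc 1 ⌊x⌋₊)
    (fun n => ‖LSeries.term (fun n => (piltz k n : ℂ)) (σ : ℂ) n‖) (x ^ σ)).symm.le.trans
      (mul_le_mul_of_nonneg_right (hS.sum_le_tsum _ fun n _ => norm_nonneg _) (by positivity)))
  rw [Finset.mem_Icc] at hn
  have hn0 : (0 : ℝ) < n := Nat.cast_pos.2 hn.1
  rw [LSeries.norm_term_eq, if_neg (by omega), Complex.norm_real,
    Real.norm_of_nonneg (piltz_nonneg k n), Complex.ofReal_re, div_mul_eq_mul_div,
    le_div_iff₀ (by positivity)]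
  exact mul_le_mul_of_nonneg_left (Real.rpow_le_rpow hn0.le
    ((Nat.cast_le.2 hn.2).trans (Nat.floor_le hx)) (by linarith)) (piltz_nonneg k n)

/-- An entire function against `s (s + 1)` and the powers of `s - 1`. -/
theorem exists_principal (k : ℕ) : ∀ g : ℂ → ℂ, Differentiable ℂ g →
    ∃ (q : ℕ → ℂ) (H : ℂ → ℂ), Differentiable ℂ H ∧ (1 ≤ k → q (k - 1) = g 1 / 2) ∧
      ∀ s, g s = s * (s + 1) * ∑ j ∈ range k, q j * (s - 1) ^ (k - 1 - j) +
        (s - 1) ^ k * H s := by
  induction k with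
  | zero => exact fun g hg => ⟨0, g, hg, by simp, fun s => by simp⟩
  | succ k ih =>
    intro g hg
    obtain ⟨g₀, hg₀⟩ : ∃ g₀ : ℂ → ℂ, g₀ = fun s => g s - g 1 / 2 * (s * (s + 1)) := ⟨_, rfl⟩
    have hd : Differentiable ℂ g₀ :=
      hg₀ ▸ hg.sub ((differentiable_id.mul (differentiable_id.add_const 1)).const_mul _)
    have hd' : Differentiable ℂ (dslope g₀ 1) := fun s =>
      ((Complex.differentiableOn_dslope (Filter.univ_mem)).2 hd.differentiableOn).differentiableAt
        Filter.univ_mem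
    obtain ⟨q, H, hH, -, he⟩ := ih _ hd'
    refine ⟨Function.update q k (g 1 / 2), H, hH, fun _ => by simp, fun s => ?_⟩
    have h1 : (s - 1) * dslope g₀ 1 s = g₀ s := by
      have := sub_smul_dslope g₀ 1 s
      rw [smul_eq_mul] at this
      rw [this, hg₀]
      ring
    have e : ∀ j ∈ range k, Function.update q k (g 1 / 2) j * (s - 1) ^ (k + 1 - 1 - j) =
        (s - 1) * (q j * (s - 1) ^ (k - 1 - j)) := fun j hj => by
      rw [mem_range] at hj
      rw [Function.update_of_ne (Nat.ne_of_lt hj), show k + 1 - 1 - j = k - 1 - j + 1 by omega,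
        pow_succ]
      ring
    rw [sum_range_succ, sum_congr rfl e, Function.update_self, Nat.add_sub_cancel, Nat.sub_self,
      pow_zero, mul_one, ← mul_sum]
    have h2 : g s = g 1 / 2 * (s * (s + 1)) + g₀ s := by rw [hg₀]; ring
    rw [h2, ← h1, he s, pow_succ]
    ring

/-- `ζ (s) ^ k / (s (s + 1))` apart from its principal part at `1`. -/
theorem exists_zeta_principal (k : ℕ) : ∃ (q : ℕ → ℂ) (H : ℂ → ℂ), Differentiable ℂ H ∧
    (1 ≤ k → q (k - 1) = 1 / 2) ∧ ∀ s : ℂ, s ≠ 1 → s ≠ 0 → s ≠ -1 →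
      riemannZeta s ^ k / (s * (s + 1)) =
        (∑ j ∈ range k, q j / (s - 1) ^ (j + 1)) + H s / (s * (s + 1)) := by
  obtain ⟨q, H, hH, hq, he⟩ := exists_principal k (fun s => riemannZeta₁ s ^ k)
    (differentiable_riemannZeta₁.pow k)
  refine ⟨q, H, hH, fun hk => by rw [hq hk, riemannZeta₁_one, one_pow],
    fun s h1 h0 hm1 => ?_⟩
  have hs1 : s - 1 ≠ 0 := sub_ne_zero.2 h1
  have hs2 : s + 1 ≠ 0 := fun h => hm1 (eq_neg_of_add_eq_zero_left h)
  have hz : riemannZeta s = riemannZeta₁ s / (s - 1) := by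
    rw [riemannZeta_eq_inv_sub_mul h1, inv_mul_eq_div]
  rw [hz, div_pow, show riemannZeta₁ s ^ k = _ from he s, add_div, add_div]
  congr 1
  · rw [mul_sum, sum_div, sum_div]
    refine sum_congr rfl fun j hj => ?_
    rw [mem_range] at hj
    obtain ⟨i, rfl⟩ : ∃ i, k = j + 1 + i := ⟨k - (j + 1), by omega⟩
    rw [show j + 1 + i - 1 - j = i by omega, pow_add]
    field_simp
  · field_simp

end FA.PiltzDivisor

end
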