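import Fermat.Agent.PiltzDivisor.Forward
import Fermat.Agent.LindelofBacklund.Interpolation
import Mathlib.NumberTheory.LSeries.SumCoeff

/-!
# A bound for `ζ` from the error in the divisor problem of Piltz

The Mellin transform of the error continues `ζ (s) ^ k / s`, less its principal part, to
`re s > e`, and it is bounded on vertical lines. So `ζ (σ + it) = O (|t| ^ (1/k))` for `σ > e`.
-/

set_option autoImplicit false

noncomputable section

namespace FA.PiltzDivisor

open Finset Complex MeasureTheory Filter Polynomial Asymptotics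
open FA.Backlund (LineBound ClearedBound norm_zeta_le_of_cleared clearedBound_neg_four)
open scoped Topology Real Nat

/-- The error on `t ≥ 1`. -/
def errFn (k : ℕ) (P : ℝ[X]) (t : ℝ) : ℂ :=
  (((Set.Ici (1 : ℝ)).indicator
    (fun t => piltzSum k t - t * P.eval (Real.log (max t 1))) t : ℝ) : ℂ)

/-- The principal part of `ζ ^ k / s` at `1`. -/
def polePart (P : ℝ[X]) (s : ℂ) : ℂ :=
  ∑ m ∈ range (P.natDegree + 1), (P.coeff m : ℂ) * ((m ! : ℂ) / (s - 1) ^ (m + 1))

theorem errFn_locallyIntegrableOn (k : ℕ) (P : ℝ[X]) :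
    LocallyIntegrableOn (errFn k P) (Set.Ioi 0) := by
  have h : LocallyIntegrable ((Set.Ici (1 : ℝ)).indicator
      fun t => piltzSum k t - t * P.eval (Real.log (max t 1))) :=
    ((piltzSum_mono k).locallyIntegrable.sub (Continuous.locallyIntegrable
      (continuous_id.mul (P.continuous.comp (Real.continuousOn_log.comp_continuous
        (continuous_id.max continuous_const)
        fun t => (zero_lt_one.trans_le (le_max_right t 1)).ne'))))).indicator measurableSet_Ici
  intro x _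
  obtain ⟨u, hu, hi⟩ := h x
  exact ⟨u, mem_nhdsWithin_of_mem_nhds hu, hi.ofReal⟩

theorem errFn_isBigO_bot (k : ℕ) (P : ℝ[X]) (b : ℝ) :
    errFn k P =O[𝓝[>] (0 : ℝ)] fun t : ℝ => t ^ (-b) := by
  refine (isBigO_zero _ _).congr' ?_ EventuallyEq.rfl
  filter_upwards [nhdsWithin_le_nhds (Iio_mem_nhds one_pos)] with t ht
  rw [errFn, Set.indicator_of_notMem (fun hh => absurd (Set.mem_Ici.1 hh) ht.not_ge)]
  simp

theorem errFn_isBigO_top {k : ℕ} {P : ℝ[X]} {e : ℝ}
    (h : ∃ C : ℝ, ∀ x : ℝ, 2 ≤ x → |piltzSum k x - x * P.eval (Real.log x)| ≤ C * x ^ e) :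
    errFn k P =O[atTop] fun t : ℝ => t ^ (- -e) := by
  obtain ⟨C, hC⟩ := h
  refine IsBigO.of_bound C ?_
  filter_upwards [eventually_ge_atTop (2 : ℝ)] with t ht
  rw [neg_neg, errFn, Complex.norm_real,
    Set.indicator_of_mem (Set.mem_Ici.2 (by linarith)), max_eq_left (by linarith : (1 : ℝ) ≤ t),
    Real.norm_eq_abs, Real.norm_of_nonneg (by positivity)]
  exact hC t ht

theorem piltz_mellin_eq {k : ℕ} {P : ℝ[X]} {s : ℂ} (hs : 1 < s.re) :
    riemannZeta s ^ k = s * mellin (errFn k P) (-s) + s * polePart P s := by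
  obtain ⟨σ, hσ⟩ : ∃ σ, σ = (1 + s.re) / 2 := ⟨_, rfl⟩
  obtain ⟨C, hC, hle⟩ := exists_piltzSum_le k (σ := σ) (by linarith)
  obtain ⟨D, hD⟩ : ∃ D : ℝ → ℂ,
      D = (Set.Ici (1 : ℝ)).indicator fun t => (piltzSum k t : ℂ) := ⟨_, rfl⟩
  have hDl : LocallyIntegrableOn D (Set.Ioi 0) := by
    intro x _
    obtain ⟨u, hu, hi⟩ := ((piltzSum_mono k).locallyIntegrable (μ := volume)) x
    exact ⟨u, mem_nhdsWithin_of_mem_nhds hu, hD ▸ hi.ofReal.indicator measurableSet_Ici⟩
  have hDtop : D =O[atTop] fun t : ℝ => t ^ (- -σ) := by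
    refine IsBigO.of_bound C ?_
    filter_upwards [eventually_ge_atTop (1 : ℝ)] with t ht
    rw [neg_neg, hD, Set.indicator_of_mem (Set.mem_Ici.2 ht), Complex.norm_real,
      Real.norm_of_nonneg (piltzSum_nonneg k t), Real.norm_of_nonneg (by positivity)]
    exact hle t (by linarith)
  have hDbot : D =O[𝓝[>] (0 : ℝ)] fun t : ℝ => t ^ (-(-s.re - 1)) := by
    refine (isBigO_zero _ _).congr' ?_ EventuallyEq.rfl
    filter_upwards [nhdsWithin_le_nhds (Iio_mem_nhds one_pos)] with t ht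
    rw [hD, Set.indicator_of_notMem (fun hh => absurd (Set.mem_Ici.1 hh) ht.not_ge)]
  have hDc : MellinConvergent D (-s) :=
    mellinConvergent_of_isBigO_rpow (a := -σ) (b := -s.re - 1) hDl hDtop
      (by rw [neg_re]; linarith) hDbot (by rw [neg_re]; linarith)
  have hDint : s * mellin D (-s) = riemannZeta s ^ k := by
    have hO : (fun n : ℕ => ∑ j ∈ Finset.Icc 1 n, (piltz k j : ℂ)) =O[atTop]
        fun n : ℕ => (n : ℝ) ^ σ := by
      refine IsBigO.of_bound C (Eventually.of_forall fun n => ?_)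
      rw [← ofReal_sum, Complex.norm_real, Real.norm_of_nonneg
        (sum_nonneg fun j _ => piltz_nonneg k j), Real.norm_of_nonneg (by positivity)]
      have := hle n (Nat.cast_nonneg n)
      rwa [piltzSum, Nat.floor_natCast] at this
    rw [← (lseries_piltz k hs).2, LSeries_eq_mul_integral _ (show 0 ≤ σ by linarith)
      (show σ < s.re by linarith) (lseries_piltz k hs).1 hO]
    congr 1
    rw [mellin, hD]
    have e : ∀ t : ℝ, (t : ℂ) ^ (-s - 1) •
        (Set.Ici (1 : ℝ)).indicator (fun t => (piltzSum k t : ℂ)) t =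
        (Set.Ici (1 : ℝ)).indicator (fun t => (∑ j ∈ Finset.Icc 1 ⌊t⌋₊, (piltz k j : ℂ)) *
          (t : ℂ) ^ (-(s + 1))) t := fun t => by
      by_cases ht : t ∈ Set.Ici (1 : ℝ)
      · rw [Set.indicator_of_mem ht, Set.indicator_of_mem ht, smul_eq_mul, piltzSum, ofReal_sum,
          mul_comm, neg_add, ← sub_eq_add_neg]
      · rw [Set.indicator_of_notMem ht, Set.indicator_of_notMem ht, smul_zero]
    simp only [e]
    rw [setIntegral_indicator measurableSet_Ici,
      Set.inter_eq_self_of_subset_right (Set.Ici_subset_Ioi.2 one_pos),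
      integral_Ici_eq_integral_Ioi]
  -- the powers of the logarithm
  obtain ⟨T, hT⟩ : ∃ T : ℕ → ℝ → ℂ,
      T = fun (m : ℕ) (t : ℝ) => (P.coeff m : ℂ) • ((t : ℂ) ^ (1 : ℂ) • upLog m t) := ⟨_, rfl⟩
  have hTc : ∀ m, MellinConvergent (T m) (-s) := fun m => hT ▸
    MellinConvergent.const_smul (MellinConvergent.cpow_smul.2 (upLog_convergent m (by
      rw [add_re, neg_re, one_re]
      linarith))) _
  have hTv : ∀ m, mellin (T m) (-s) = (P.coeff m : ℂ) * ((m ! : ℂ) / (s - 1) ^ (m + 1)) :=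
    fun m => by
    rw [hT, mellin_const_smul, mellin_cpow_smul, mellin_upLog m (by
      rw [add_re, neg_re, one_re]
      linarith), smul_eq_mul, neg_add, neg_neg, ← sub_eq_add_neg]
  have hsum : MellinConvergent (fun t => ∑ m ∈ range (P.natDegree + 1), T m t) (-s) ∧
      mellin (fun t => ∑ m ∈ range (P.natDegree + 1), T m t) (-s) = polePart P s := by
    refine ⟨?_, ?_⟩
    · simp only [MellinConvergent, smul_sum]
      exact integrable_finsetSum _ fun m _ => hTc m
    · simp only [polePart, ← hTv, mellin, smul_sum]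
      exact integral_finsetSum _ fun m _ => hTc m
  have he : errFn k P = fun t => D t - ∑ m ∈ range (P.natDegree + 1), T m t := by
    funext t
    rcases lt_or_ge t 1 with ht | ht
    · rw [errFn, hD, hT, Set.indicator_of_notMem (fun hh => absurd (Set.mem_Ici.1 hh) ht.not_ge),
        Set.indicator_of_notMem (fun hh => absurd (Set.mem_Ici.1 hh) ht.not_ge)]
      simp [upLog_of_lt ht]
    · rw [errFn, hD, hT, Set.indicator_of_mem (Set.mem_Ici.2 ht),
        Set.indicator_of_mem (Set.mem_Ici.2 ht), max_eq_left ht, ofReal_sub, ofReal_mul]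
      simp only [smul_eq_mul, upLog_of_le ht, cpow_one]
      rw [Polynomial.eval_eq_sum_range, ofReal_sum, mul_sum]
      congr 1
      refine sum_congr rfl fun m _ => ?_
      push_cast
      ring
  rw [he, (hasMellin_sub hDc hsum.1).2, hsum.2, mul_sub, hDint, sub_add_cancel]

/-- **The continuation.** -/
theorem piltz_mellin_continued {k : ℕ} {P : ℝ[X]} {e : ℝ}
    (h : ∃ C : ℝ, ∀ x : ℝ, 2 ≤ x → |piltzSum k x - x * P.eval (Real.log x)| ≤ C * x ^ e)
    {s : ℂ} (hs : e < s.re) (hs1 : s ≠ 1) :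
    riemannZeta s ^ k = s * mellin (errFn k P) (-s) + s * polePart P s := by
  obtain ⟨N, hN⟩ : ∃ N, N = k + P.natDegree + 1 := ⟨_, rfl⟩
  obtain ⟨U, hU⟩ : ∃ U : Set ℂ, U = {z : ℂ | e < z.re} := ⟨_, rfl⟩
  obtain ⟨A, hA⟩ : ∃ A : ℂ → ℂ, A = fun z => z * ((z - 1) ^ N * mellin (errFn k P) (-z)) +
      z * ∑ m ∈ range (P.natDegree + 1),
        (P.coeff m : ℂ) * (m ! : ℂ) * (z - 1) ^ (N - (m + 1)) := ⟨_, rfl⟩
  obtain ⟨B, hB⟩ : ∃ B : ℂ → ℂ, B = fun z => riemannZeta₁ z ^ k * (z - 1) ^ (N - k) := ⟨_, rfl⟩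
  have hUo : IsOpen U := hU ▸ isOpen_lt continuous_const Complex.continuous_re
  have hUc : IsPreconnected U := hU ▸ (convex_halfSpace_re_gt e).isPreconnected
  have hdA : DifferentiableOn ℂ A U := fun z hz => by
    rw [hU] at hz
    have hz' : e < z.re := hz
    have hm : DifferentiableAt ℂ (fun z => mellin (errFn k P) (-z)) z :=
      DifferentiableAt.comp (g := mellin (errFn k P)) (f := fun z : ℂ => -z) z
        (mellin_differentiableAt_of_isBigO_rpow (a := -e)
        (b := -z.re - 1) (errFn_locallyIntegrableOn k P) (errFn_isBigO_top h)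
        (by rw [neg_re]; linarith) (errFn_isBigO_bot k P _) (by rw [neg_re]; linarith))
        differentiableAt_id.neg
    rw [hA]
    exact ((differentiableAt_id.mul (((differentiableAt_id.sub_const 1).pow N).mul hm)).add
      (differentiableAt_id.mul (DifferentiableAt.fun_sum fun m _ =>
        ((differentiableAt_id.sub_const 1).pow _).const_mul _))).differentiableWithinAt
  have hdB : DifferentiableOn ℂ B U := hB ▸ ((differentiable_riemannZeta₁.pow k).mul
    ((differentiable_id.sub_const 1).pow _)).differentiableOn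
  have hclear : ∀ z : ℂ, z ≠ 1 →
      A z = (z - 1) ^ N * (z * mellin (errFn k P) (-z) + z * polePart P z) ∧
        B z = (z - 1) ^ N * riemannZeta z ^ k := fun z hz => by
    have h1 : z - 1 ≠ 0 := sub_ne_zero.2 hz
    refine ⟨?_, ?_⟩
    · have e : ∑ m ∈ range (P.natDegree + 1), (P.coeff m : ℂ) * (m ! : ℂ) *
          (z - 1) ^ (N - (m + 1)) = (z - 1) ^ N * polePart P z := by
        rw [polePart, mul_sum]
        refine sum_congr rfl fun m hm => ?_
        rw [mem_range] at hm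
        obtain ⟨i, hi⟩ : ∃ i, N = m + 1 + i := ⟨N - (m + 1), by omega⟩
        rw [hi, Nat.add_sub_cancel_left, pow_add]
        field_simp
      simp only [hA]
      rw [e]
      ring
    · rw [hB, show riemannZeta z = riemannZeta₁ z / (z - 1) by
        rw [riemannZeta_eq_inv_sub_mul hz, inv_mul_eq_div], div_pow,
        show N = k + (N - k) by omega, pow_add, Nat.add_sub_cancel_left]
      field_simp
  obtain ⟨z₀, hz₀⟩ : ∃ z₀ : ℂ, z₀ = ((max e 1 + 1 : ℝ) : ℂ) := ⟨_, rfl⟩
  have hz₀r : z₀.re = max e 1 + 1 := by rw [hz₀, ofReal_re]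
  have hz₀U : z₀ ∈ U := by
    rw [hU, Set.mem_ofPred_eq, hz₀r]
    linarith [le_max_left e 1]
  have hev : A =ᶠ[𝓝 z₀] B := by
    filter_upwards [(isOpen_lt continuous_const Complex.continuous_re).mem_nhds
      (show (1 : ℝ) < z₀.re by rw [hz₀r]; linarith [le_max_right e 1])] with z hz
    have hz1 : z ≠ 1 := fun h1 => by
      rw [h1, one_re] at hz
      exact lt_irrefl _ hz
    rw [(hclear z hz1).1, (hclear z hz1).2, piltz_mellin_eq (P := P) hz]
  have heq := (hdA.analyticOnNhd hUo).eqOn_of_preconnected_of_eventuallyEq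
    (hdB.analyticOnNhd hUo) hUc hz₀U hev (show s ∈ U by rw [hU]; exact hs)
  rw [(hclear s hs1).1, (hclear s hs1).2] at heq
  exact (mul_left_cancel₀ (pow_ne_zero _ (sub_ne_zero.2 hs1)) heq).symm

/-- **The bound on the lines right of the exponent.** -/
theorem lineBound_of_piltz {k : ℕ} (hk : 1 ≤ k) {P : ℝ[X]} {e σ : ℝ} (hσ : e < σ)
    (h : ∃ C : ℝ, ∀ x : ℝ, 2 ≤ x → |piltzSum k x - x * P.eval (Real.log x)| ≤ C * x ^ e) :
    LineBound σ (1 / k) := by
  obtain ⟨M, hM⟩ : ∃ M, M = ∫ t in Set.Ioi (0 : ℝ), t ^ (-σ - 1) * ‖errFn k P t‖ := ⟨_, rfl⟩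
  obtain ⟨S, hS⟩ : ∃ S, S = ∑ m ∈ range (P.natDegree + 1), ‖(P.coeff m : ℂ)‖ * (m ! : ℝ) :=
    ⟨_, rfl⟩
  have hM0 : 0 ≤ M := hM ▸ setIntegral_nonneg measurableSet_Ioi fun t ht =>
    mul_nonneg (Real.rpow_nonneg (le_of_lt ht) _) (norm_nonneg _)
  have hS0 : 0 ≤ S := hS ▸ by positivity
  obtain ⟨K, hK⟩ : ∃ K, K = (|σ| + 1) * (M + S) := ⟨_, rfl⟩
  have hK0 : 0 ≤ K := hK ▸ by positivity
  refine ⟨K ^ (1 / (k : ℝ)), fun t ht => ?_⟩
  obtain ⟨s, hs⟩ : ∃ s : ℂ, s = (σ : ℂ) + t * I := ⟨_, rfl⟩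
  have hre : s.re = σ := by simp [hs]
  have him : s.im = t := by simp [hs]
  have hs1 : s ≠ 1 := fun h1 => by
    rw [h1, one_im] at him
    rw [← him] at ht
    norm_num at ht
  have ht0 : 0 < |t| := by linarith
  have hns : ‖s‖ ≤ (|σ| + 1) * |t| := by
    refine (norm_le_abs_re_add_abs_im s).trans ?_
    rw [hre, him]
    nlinarith [abs_nonneg σ]
  have hmel : ‖mellin (errFn k P) (-s)‖ ≤ M := by
    rw [hM, mellin]
    refine (norm_integral_le_integral_norm _).trans (le_of_eq ?_)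
    refine setIntegral_congr_fun measurableSet_Ioi fun u hu => ?_
    rw [norm_smul, norm_cpow_eq_rpow_re_of_pos hu, sub_re, neg_re, one_re, hre]
  have hpole : ‖polePart P s‖ ≤ S := by
    rw [hS, polePart]
    refine (norm_sum_le _ _).trans (sum_le_sum fun m _ => ?_)
    rw [norm_mul, norm_div, norm_pow, Complex.norm_natCast]
    refine mul_le_mul_of_nonneg_left (div_le_self (Nat.cast_nonneg _) (one_le_pow₀ ?_))
      (norm_nonneg _)
    have := Complex.abs_im_le_norm (s - 1)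
    rw [sub_im, one_im, sub_zero, him] at this
    linarith
  have hpow : ‖riemannZeta s‖ ^ k ≤ K * |t| := by
    rw [← norm_pow, piltz_mellin_continued h (by rw [hre]; exact hσ) hs1, ← mul_add, norm_mul, hK]
    refine (mul_le_mul hns ((norm_add_le _ _).trans (add_le_add hmel hpole)) (norm_nonneg _)
      (by positivity)).trans (le_of_eq (by ring))
  rw [← hs, ← Real.mul_rpow hK0 ht0.le, one_div]
  calc ‖riemannZeta s‖ = (‖riemannZeta s‖ ^ k) ^ ((k : ℝ)⁻¹) :=
        (Real.pow_rpow_inv_natCast (norm_nonneg _) (by omega)).symm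
    _ ≤ _ := Real.rpow_le_rpow (by positivity) hpow (by positivity)

/-- **The errors of all orders give the hypothesis of Lindelöf.** -/
theorem lindelof_of_piltz (h : ∀ k : ℕ, 1 ≤ k → ∃ P : ℝ[X], ∀ ε : ℝ, 0 < ε →
      ∃ C : ℝ, ∀ x : ℝ, 2 ≤ x →
        |piltzSum k x - x * P.eval (Real.log x)| ≤ C * x ^ (1 / 2 + ε))
    {ε : ℝ} (hε : 0 < ε) : LineBound (1 / 2) ε := by
  obtain ⟨p, hp⟩ : ∃ p : ℝ, p = (FA.SelbergCLT.growDeg : ℝ) := ⟨_, rfl⟩
  have hp0 : 0 ≤ p := hp ▸ Nat.cast_nonneg _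
  obtain ⟨δ, hδ⟩ : ∃ δ, δ = min (ε / (2 * (p + 1))) (1 / 4) := ⟨_, rfl⟩
  have hδ0 : 0 < δ := hδ ▸ lt_min (by positivity) (by norm_num)
  have hδ4 : δ ≤ 1 / 4 := hδ ▸ min_le_right _ _
  have hδε : p * δ ≤ ε / 2 := by
    have h1 : δ ≤ ε / (2 * (p + 1)) := hδ ▸ min_le_left _ _
    rw [le_div_iff₀ (by positivity)] at h1
    nlinarith
  obtain ⟨k, hk⟩ := exists_nat_gt (2 / ε)
  have hk0 : (0 : ℝ) < k := lt_trans (by positivity) hk
  have hk1 : 1 ≤ k := Nat.cast_pos.1 hk0
  obtain ⟨P, hP⟩ := h k hk1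
  have hline := lineBound_of_piltz hk1 (σ := 1 / 2 + δ) (by linarith) (hP (δ / 2) (by positivity))
  obtain ⟨A, hA, hA'⟩ := (hp ▸ clearedBound_neg_four).interp
    (hline.cleared (by positivity) (by rw [abs_of_pos (by positivity)]; linarith))
    (by linarith) le_rfl (by linarith) hp0 (by positivity)
  refine ⟨A * 4 ^ (ε + 1), fun t ht => norm_zeta_le_of_cleared hA (by linarith) ht
    ((hA' (1 / 2) t (by norm_num) (by linarith)).trans
      (mul_le_mul_of_nonneg_left (Real.rpow_le_rpow_of_exponent_le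
        (by linarith [abs_nonneg t]) ?_) hA))⟩
  obtain ⟨w, hw⟩ : ∃ w : ℝ, w = (1 / 2 - -4) / (1 / 2 + δ - -4) := ⟨_, rfl⟩
  rw [← hw]
  have hw1 : w ≤ 1 := by rw [hw, div_le_one (by linarith)]; linarith
  have hw2 : 1 - w ≤ δ := by
    rw [hw, one_sub_div (by linarith), div_le_iff₀ (by linarith)]
    nlinarith
  have hkε : 1 / (k : ℝ) ≤ ε / 2 := by
    rw [div_le_iff₀ hk0]
    rw [div_lt_iff₀ hε] at hk
    linarith
  nlinarith [mul_le_mul_of_nonneg_left hw2 hp0, mul_le_mul_of_nonneg_left hw1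
    (show 0 ≤ 1 / (k : ℝ) + 1 by positivity)]

end FA.PiltzDivisor

end
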