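import Fermat.Agent.PiltzDivisor.Basic
import Fermat.Agent.PiltzDivisor.Line
import Fermat.Agent.PiltzDivisor.Mellin
import Fermat.Agent.SiegelWalfisz.Perron
import Fermat.Agent.SelbergCLT.Kernel

/-!
# The error in the divisor problem of Piltz from a bound for `ζ`

A bound `ζ = O (|t| ^ η)` in `c ≤ re s ≤ 4` with `k η ≤ 1/2` gives an error
`O (x ^ (c + 2 k η (1 - l)) + x ^ (l + ε))`: the Perron formula with the tent, the line moved to
`re s = c`, and one difference with step `x ^ l`.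
-/

set_option autoImplicit false

noncomputable section

namespace FA.PiltzDivisor

open Finset Complex MeasureTheory Filter Polynomial
open FA.SelbergCLT (verticals_of_boxInt)
open FA.ExplicitFormula (boxInt boxInt_eq_zero)
open FA.SiegelWalfisz (kernelMul smoothSum smoothSum_eq)
open scoped Topology Real Nat

/-- `∑_{n ≤ x} d_k n (x - n)`. -/
def piltzRiesz (k : ℕ) (x : ℝ) : ℝ := ∑ n ∈ Finset.Icc 1 ⌊x⌋₊, piltz k n * (x - n)

theorem piltzRiesz_sub {k : ℕ} {y z : ℝ} (hy : 0 ≤ y) (hyz : y ≤ z) :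
    (z - y) * piltzSum k y ≤ piltzRiesz k z - piltzRiesz k y ∧
      piltzRiesz k z - piltzRiesz k y ≤ (z - y) * piltzSum k z := by
  have hsub : Finset.Icc 1 ⌊y⌋₊ ⊆ Finset.Icc 1 ⌊z⌋₊ := Icc_subset_Icc_right (Nat.floor_mono hyz)
  have hin : ∀ n ∈ Finset.Icc 1 ⌊z⌋₊, (n : ℝ) ≤ z := fun n hn =>
    (Nat.cast_le.2 (Finset.mem_Icc.1 hn).2).trans (Nat.floor_le (hy.trans hyz))
  have hout : ∀ n ∈ Finset.Icc 1 ⌊z⌋₊ \ Finset.Icc 1 ⌊y⌋₊, y < n := fun n hn => by
    simp only [Finset.mem_sdiff, Finset.mem_Icc, not_and, not_le] at hn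
    exact Nat.lt_of_floor_lt (hn.2 hn.1.1)
  have e : piltzRiesz k z - piltzRiesz k y = (z - y) * piltzSum k y +
      ∑ n ∈ Finset.Icc 1 ⌊z⌋₊ \ Finset.Icc 1 ⌊y⌋₊, piltz k n * (z - n) := by
    rw [piltzRiesz, piltzRiesz, piltzSum, mul_sum, ← sum_sdiff hsub, add_sub_assoc,
      ← sum_sub_distrib, add_comm]
    congr 1
    exact sum_congr rfl fun n _ => by ring
  refine ⟨?_, ?_⟩
  · rw [e]
    exact le_add_of_nonneg_right (sum_nonneg fun n hn => mul_nonneg (piltz_nonneg k n)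
      (sub_nonneg.2 (hin n (Finset.mem_sdiff.1 hn).1)))
  · rw [e, show piltzSum k z = piltzSum k y +
      ∑ n ∈ Finset.Icc 1 ⌊z⌋₊ \ Finset.Icc 1 ⌊y⌋₊, piltz k n by
        rw [piltzSum, piltzSum, ← sum_sdiff hsub, add_comm], mul_add, add_le_add_iff_left, mul_sum]
    refine sum_le_sum fun n hn => ?_
    rw [mul_comm (z - y)]
    exact mul_le_mul_of_nonneg_left (by linarith [hout n hn]) (piltz_nonneg k n)

/-- What is left of `ζ ^ k / (w (w + 1))` without the principal part. -/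
def tailFn (q₀ : ℂ) (H : ℂ → ℂ) (w : ℂ) : ℂ := (H w + q₀ * w) / (w * (w + 1))

theorem principal_split {k : ℕ} (hk : 1 ≤ k) {q : ℕ → ℂ} {H : ℂ → ℂ}
    (he : ∀ s : ℂ, s ≠ 1 → s ≠ 0 → s ≠ -1 → riemannZeta s ^ k / (s * (s + 1)) =
      (∑ j ∈ range k, q j / (s - 1) ^ (j + 1)) + H s / (s * (s + 1)))
    {w : ℂ} (h1 : w ≠ 1) (h0 : w ≠ 0) (hm : w ≠ -1) :
    riemannZeta w ^ k / (w * (w + 1)) = (∑ j ∈ Finset.Ico 1 k, q j / (w - 1) ^ (j + 1)) +
      q 0 * (1 / (w - 1) - 1 / (w + 1)) + tailFn (q 0) H w := by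
  rw [he w h1 h0 hm, range_eq_Ico, sum_eq_sum_Ico_succ_bot hk, zero_add, pow_one, tailFn]
  have a1 : w - 1 ≠ 0 := sub_ne_zero.2 h1
  have a2 : w + 1 ≠ 0 := fun h => hm (eq_neg_of_add_eq_zero_left h)
  field_simp
  ring

/-- **The tail in the strip.** -/
theorem exists_tailFn_le {k : ℕ} (hk : 1 ≤ k) {q : ℕ → ℂ} {H : ℂ → ℂ} (hH : Differentiable ℂ H)
    (he : ∀ s : ℂ, s ≠ 1 → s ≠ 0 → s ≠ -1 → riemannZeta s ^ k / (s * (s + 1)) =
      (∑ j ∈ range k, q j / (s - 1) ^ (j + 1)) + H s / (s * (s + 1)))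
    {c η : ℝ} (hc : 1 / 2 ≤ c) (hη : 0 ≤ η) (hκ : k * η ≤ 1 / 2)
    (hb : ∃ C : ℝ, ∀ u v : ℝ, c ≤ u → u ≤ 4 → 1 ≤ |v| →
      ‖riemannZeta ((u : ℂ) + v * I)‖ ≤ C * |v| ^ η) :
    ∃ C, 0 ≤ C ∧ ∀ u v : ℝ, c ≤ u → u ≤ 4 →
      ‖tailFn (q 0) H ((u : ℂ) + v * I)‖ ≤ C * (1 + |v|) ^ ((k : ℝ) * η - 2) := by
  obtain ⟨Cb, hCb⟩ := hb
  obtain ⟨K, hK⟩ := ((isCompact_Icc (a := c) (b := 4)).prod
    (isCompact_Icc (a := (-1 : ℝ)) (b := 1))).exists_bound_of_continuousOn
    (f := fun p : ℝ × ℝ => tailFn (q 0) H ((p.1 : ℂ) + p.2 * I)) (by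
      refine ((hH.continuous.comp (by fun_prop)).continuousOn.add (by fun_prop)).div (by fun_prop)
        fun p hp => mul_ne_zero (fun h => ?_) (fun h => ?_)
      · have := congrArg Complex.re h
        simp at this
        linarith [hp.1.1]
      · have := congrArg Complex.re h
        simp at this
        linarith [hp.1.1])
  obtain ⟨Sq, hSq⟩ : ∃ S : ℝ, S = (∑ j ∈ Finset.Ico 1 k, ‖q j‖) + 2 * ‖q 0‖ := ⟨_, rfl⟩
  have hSq0 : 0 ≤ Sq := hSq ▸ by positivity
  refine ⟨4 * (|Cb| ^ k + Sq) + 4 * |K|, by positivity, fun u v hu hu4 => ?_⟩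
  obtain ⟨e, he'⟩ : ∃ e : ℝ, e = (k : ℝ) * η - 2 := ⟨_, rfl⟩
  rw [← he']
  have hκ0 : 0 ≤ (k : ℝ) * η := by positivity
  have hp0 : 0 ≤ (1 + |v|) ^ e := by positivity
  rcases le_or_gt |v| 1 with hv | hv
  · refine ((hK (u, v) ⟨⟨hu, hu4⟩, abs_le.1 hv⟩).trans (le_abs_self K)).trans ?_
    have h1 : 1 / 4 ≤ (1 + |v|) ^ e := by
      refine le_trans ?_ (Real.rpow_le_rpow_of_nonpos (by positivity)
        (show 1 + |v| ≤ 2 by linarith) (by linarith))
      refine le_trans ?_ (Real.rpow_le_rpow_of_exponent_le one_le_two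
        (show -((2 : ℕ) : ℝ) ≤ e by push_cast; linarith))
      rw [Real.rpow_neg two_pos.le, Real.rpow_natCast]
      norm_num
    nlinarith [abs_nonneg K, show 0 ≤ 4 * (|Cb| ^ k + Sq) * (1 + |v|) ^ e by positivity]
  obtain ⟨w, hw⟩ : ∃ w : ℂ, w = (u : ℂ) + v * I := ⟨_, rfl⟩
  have hwim : w.im = v := by simp [hw]
  have hwre : w.re = u := by simp [hw]
  have h1 : w ≠ 1 := fun h => by rw [h] at hwim; simp at hwim; rw [← hwim] at hv; norm_num at hv
  have h0 : w ≠ 0 := fun h => by rw [h] at hwre; simp at hwre; linarith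
  have hm : w ≠ -1 := fun h => by rw [h] at hwre; simp at hwre; linarith
  have hv0 : 0 < |v| := by linarith
  have hn : |v| ≤ ‖w‖ := hwim ▸ Complex.abs_im_le_norm w
  have hn1 : |v| ≤ ‖w + 1‖ := by simpa [hwim] using Complex.abs_im_le_norm (w + 1)
  have hn2 : |v| ≤ ‖w - 1‖ := by simpa [hwim] using Complex.abs_im_le_norm (w - 1)
  have hsq : 0 < |v| ^ 2 := by positivity
  have hz : ‖riemannZeta w ^ k / (w * (w + 1))‖ ≤ |Cb| ^ k * |v| ^ ((k : ℝ) * η) / |v| ^ 2 := by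
    rw [norm_div, norm_pow, norm_mul, mul_comm (k : ℝ), Real.rpow_mul (abs_nonneg v),
      Real.rpow_natCast, ← mul_pow]
    refine div_le_div₀ (by positivity) (pow_le_pow_left₀ (norm_nonneg _) ?_ k) hsq
      ((sq |v|).symm ▸ mul_le_mul hn hn1 hv0.le (norm_nonneg _))
    exact (hw ▸ hCb u v hu hu4 hv.le).trans
      (mul_le_mul_of_nonneg_right (le_abs_self Cb) (by positivity))
  have hp : ‖(∑ j ∈ Finset.Ico 1 k, q j / (w - 1) ^ (j + 1)) +
      q 0 * (1 / (w - 1) - 1 / (w + 1))‖ ≤ Sq / |v| ^ 2 := by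
    refine (norm_add_le _ _).trans ?_
    rw [hSq, add_div]
    refine add_le_add ((norm_sum_le _ _).trans ?_) ?_
    · rw [sum_div]
      refine sum_le_sum fun j hj => ?_
      rw [norm_div, norm_pow]
      refine div_le_div_of_nonneg_left (norm_nonneg _) hsq ?_
      refine (pow_le_pow_left₀ hv0.le hn2 2).trans (pow_le_pow_right₀ (hv.le.trans hn2) ?_)
      have := (Finset.mem_Ico.1 hj).1
      omega
    · rw [div_sub_div _ _ (sub_ne_zero.2 h1) (fun h => hm (eq_neg_of_add_eq_zero_left h)),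
        show (1 : ℂ) * (w + 1) - (w - 1) * 1 = 2 by ring, norm_mul, norm_div, norm_mul,
        Complex.norm_two, mul_div_assoc', mul_comm]
      exact div_le_div_of_nonneg_left (by positivity) hsq
        ((sq |v|).symm ▸ mul_le_mul hn2 hn1 hv0.le (norm_nonneg _))
  have key : ‖tailFn (q 0) H w‖ ≤ (|Cb| ^ k + Sq) * (|v| ^ ((k : ℝ) * η) / |v| ^ 2) := by
    have e := principal_split hk he h1 h0 hm
    rw [show tailFn (q 0) H w = riemannZeta w ^ k / (w * (w + 1)) -
      ((∑ j ∈ Finset.Ico 1 k, q j / (w - 1) ^ (j + 1)) +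
        q 0 * (1 / (w - 1) - 1 / (w + 1))) by rw [e]; ring]
    refine (norm_sub_le _ _).trans ((add_le_add hz hp).trans ?_)
    have hone : 1 ≤ |v| ^ ((k : ℝ) * η) := Real.one_le_rpow hv.le hκ0
    rw [add_mul, mul_div_assoc, div_eq_mul_one_div Sq]
    refine add_le_add le_rfl (mul_le_mul_of_nonneg_left ?_ hSq0)
    exact div_le_div_of_nonneg_right hone hsq.le
  rw [← hw]
  refine key.trans ?_
  have h4 : |v| ^ ((k : ℝ) * η) / |v| ^ 2 ≤ 4 * (1 + |v|) ^ e := by
    rw [← Real.rpow_natCast |v| 2, ← Real.rpow_sub hv0,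
      show (k : ℝ) * η - ((2 : ℕ) : ℝ) = e by rw [he']; norm_num]
    refine (Real.rpow_le_rpow_of_nonpos (by positivity)
      (show (1 + |v|) / 2 ≤ |v| by linarith) (by linarith)).trans ?_
    rw [Real.div_rpow (by positivity) two_pos.le, div_eq_mul_inv, mul_comm,
      ← Real.rpow_neg two_pos.le]
    refine mul_le_mul_of_nonneg_right ((Real.rpow_le_rpow_of_exponent_le one_le_two
      (show -e ≤ ((2 : ℕ) : ℝ) by push_cast; linarith)).trans ?_) hp0
    rw [Real.rpow_natCast]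
    norm_num
  calc (|Cb| ^ k + Sq) * (|v| ^ ((k : ℝ) * η) / |v| ^ 2)
      ≤ (|Cb| ^ k + Sq) * (4 * (1 + |v|) ^ e) :=
        mul_le_mul_of_nonneg_left h4 (by positivity)
    _ ≤ _ := by nlinarith [show 0 ≤ 4 * |K| * (1 + |v|) ^ e by positivity]

/-- `(1/2π) ∫ x ^ (w + 1) G w` on `re w = u`, `G` the tail. -/
abbrev tailInt (q₀ : ℂ) (H : ℂ → ℂ) (u x : ℝ) : ℂ := lineInt (tailFn q₀ H) u x

section line

variable {k : ℕ} {q : ℕ → ℂ} {H : ℂ → ℂ} {c η C : ℝ} (hH : Differentiable ℂ H) (hc : 1 / 2 ≤ c)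
  (hκ : k * η ≤ 1 / 2)
  (hG : ∀ u v : ℝ, c ≤ u → u ≤ 4 →
    ‖tailFn (q 0) H ((u : ℂ) + v * I)‖ ≤ C * (1 + |v|) ^ ((k : ℝ) * η - 2))

include hH hc in
theorem differentiableAt_tailFn {w : ℂ} (hw : c ≤ w.re) :
    DifferentiableAt ℂ (tailFn (q 0) H) w := by
  refine ((hH w).add (differentiableAt_id.const_mul _)).div
    (differentiableAt_id.mul (differentiableAt_id.add_const 1)) (mul_ne_zero ?_ ?_)
  · intro h
    have := congrArg Complex.re h
    simp at this
    linarith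
  · intro h
    have := congrArg Complex.re h
    simp at this
    linarith

include hH hc hκ hG in
/-- **The Perron formula.** -/
theorem piltzRiesz_eq (hk : 1 ≤ k) (hc2 : c ≤ 2)
    (he : ∀ s : ℂ, s ≠ 1 → s ≠ 0 → s ≠ -1 → riemannZeta s ^ k / (s * (s + 1)) =
      (∑ j ∈ range k, q j / (s - 1) ^ (j + 1)) + H s / (s * (s + 1))) {x : ℝ} (hx : 1 < x) :
    (piltzRiesz k x : ℂ) = (∑ j ∈ range k, q j * ((x ^ 2 * Real.log x ^ j / j ! : ℝ) : ℂ)) - q 0 +
      tailInt (q 0) H c x := by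
  have hx0 : 0 < x := by linarith
  obtain ⟨w, hw⟩ : ∃ w : ℝ → ℂ, w = fun v : ℝ => ((2 : ℝ) : ℂ) + (v : ℂ) * I := ⟨_, rfl⟩
  have hwre : ∀ v, (w v).re = 2 := fun v => by simp [hw]
  have hne : ∀ v, w v ≠ 1 ∧ w v ≠ 0 ∧ w v ≠ -1 := fun v => by
    refine ⟨?_, ?_, ?_⟩ <;> intro h <;> have h' := congrArg Complex.re h <;>
      norm_num [hwre] at h'
  have hperron := smoothSum_eq (f := fun n => (piltz k n : ℂ))
    (F := fun s => riemannZeta s ^ k) hx0 one_lt_two
    (lseries_piltz k (by simp)).1 fun s hs => (lseries_piltz k hs).2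
  have hS : (piltzRiesz k x : ℂ) = (x : ℂ) * smoothSum (fun n => (piltz k n : ℂ)) x := by
    rw [smoothSum, mul_sum, piltzRiesz, ofReal_sum]
    refine sum_congr rfl fun n _ => ?_
    have : (x : ℂ) ≠ 0 := ofReal_ne_zero.2 hx0.ne'
    push_cast
    field_simp
  -- the pieces
  obtain ⟨T1, hT1⟩ : ∃ T : ℕ → ℝ → ℂ, T = fun j v =>
      q j * ((x : ℂ) ^ (w v + 1) / (w v - 1) ^ (j + 1)) := ⟨_, rfl⟩
  obtain ⟨T0, hT0⟩ : ∃ T : ℝ → ℂ, T = fun v =>
      q 0 * ((x : ℂ) ^ (w v + 1) * (1 / (w v - 1) - 1 / (w v + 1))) := ⟨_, rfl⟩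
  have hwc : Continuous w := hw ▸ by fun_prop
  have hxp : ∀ v, ‖(x : ℂ) ^ (w v + 1)‖ = x ^ (3 : ℝ) := fun v => by
    rw [norm_cpow_eq_rpow_re_of_pos hx0, add_re, hwre, one_re]
    norm_num
  have hcp : Continuous fun v => (x : ℂ) ^ (w v + 1) :=
    (hwc.add continuous_const).const_cpow (Or.inl (ofReal_ne_zero.2 hx0.ne'))
  have hsq : ∀ v : ℝ, 1 + v ^ 2 ≤ ‖w v - 1‖ ^ 2 ∧ 1 + v ^ 2 ≤ ‖w v + 1‖ ^ 2 := fun v => by
    rw [hw]
    refine ⟨?_, ?_⟩
    · rw [show ((2 : ℝ) : ℂ) + (v : ℂ) * I - 1 = ((1 : ℝ) : ℂ) + (v : ℂ) * I by push_cast; ring]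
      exact one_add_sq_le_normSq v le_rfl
    · rw [show ((2 : ℝ) : ℂ) + (v : ℂ) * I + 1 = ((3 : ℝ) : ℂ) + (v : ℂ) * I by push_cast; ring]
      exact one_add_sq_le_normSq v (by norm_num)
  have hi1 : ∀ j ∈ Finset.Ico 1 k, Integrable (T1 j) := fun j hj => by
    refine line_integrable_inv_sq (C := ‖q j‖ * x ^ (3 : ℝ)) (hT1 ▸ continuous_const.mul
      (hcp.div ((hwc.sub continuous_const).pow _)
        fun v => pow_ne_zero _ (sub_ne_zero.2 (hne v).1))) fun v => ?_
    rw [hT1, norm_mul, norm_div, hxp, norm_pow, mul_div_assoc']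
    refine div_le_div_of_nonneg_left (by positivity) (by positivity)
      ((hsq v).1.trans (pow_le_pow_right₀ ?_ ?_))
    · refine le_trans ?_ (Complex.re_le_norm _)
      simp [hwre]
      norm_num
    · have := (Finset.mem_Ico.1 hj).1
      omega
  have hi0 : Integrable T0 := by
    refine line_integrable_inv_sq (C := ‖q 0‖ * x ^ (3 : ℝ) * 2) (hT0 ▸ continuous_const.mul
      (hcp.mul ((continuous_const.div (hwc.sub continuous_const)
        fun v => sub_ne_zero.2 (hne v).1).sub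
        (continuous_const.div (hwc.add continuous_const) fun v h =>
          (hne v).2.2 (eq_neg_of_add_eq_zero_left h))))) fun v => ?_
    rw [hT0, norm_mul, norm_mul, hxp, div_sub_div _ _ (sub_ne_zero.2 (hne v).1)
      (fun h => (hne v).2.2 (eq_neg_of_add_eq_zero_left h)),
      show (1 : ℂ) * (w v + 1) - (w v - 1) * 1 = 2 by ring, norm_div, norm_mul, Complex.norm_two,
      ← mul_assoc, mul_div_assoc']
    refine div_le_div_of_nonneg_left (by positivity) (by positivity) ?_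
    rw [← pow_le_pow_iff_left₀ (by positivity) (by positivity) two_ne_zero, mul_pow,
      sq (1 + v ^ 2)]
    exact mul_le_mul (hsq v).1 (hsq v).2 (by positivity) (by positivity)
  have hiG := integrable_line (fun _ h => differentiableAt_tailFn hH hc h) hκ
    (fun u v a b => hG u v a (by linarith)) hx0 hc2 le_rfl
  have hint : ∫ v : ℝ, (x : ℂ) * kernelMul (fun s => riemannZeta s ^ k) x
      (((2 : ℝ) : ℂ) + v * I) = (∑ j ∈ Finset.Ico 1 k, ∫ v : ℝ, T1 j v) + (∫ v : ℝ, T0 v) +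
        ∫ v : ℝ, (x : ℂ) ^ (((2 : ℝ) : ℂ) + (v : ℂ) * I + 1) *
          tailFn (q 0) H (((2 : ℝ) : ℂ) + (v : ℂ) * I) := by
    have hsum := integrable_finsetSum (Finset.Ico 1 k) hi1
    have hs0 : Integrable fun a => (∑ i ∈ Finset.Ico 1 k, T1 i a) + T0 a := hsum.add hi0
    rw [← integral_finsetSum _ hi1, ← integral_add hsum hi0, ← integral_add hs0 hiG]
    refine integral_congr_ae (Eventually.of_forall fun v => ?_)
    have hh := principal_split hk he (hne v).1 (hne v).2.1 (hne v).2.2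
    simp only [hw] at hh
    simp only [hT1, hT0, kernelMul, hw]
    rw [show (x : ℂ) * ((x : ℂ) ^ (((2 : ℝ) : ℂ) + (v : ℂ) * I) *
        riemannZeta (((2 : ℝ) : ℂ) + (v : ℂ) * I) ^ k /
          ((((2 : ℝ) : ℂ) + (v : ℂ) * I) * (((2 : ℝ) : ℂ) + (v : ℂ) * I + 1))) =
      (x : ℂ) ^ (((2 : ℝ) : ℂ) + (v : ℂ) * I + 1) *
        (riemannZeta (((2 : ℝ) : ℂ) + (v : ℂ) * I) ^ k /
          ((((2 : ℝ) : ℂ) + (v : ℂ) * I) * (((2 : ℝ) : ℂ) + (v : ℂ) * I + 1))) by
        rw [cpow_add _ (1 : ℂ) (ofReal_ne_zero.2 hx0.ne'), cpow_one]; ring, hh]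
    simp only [mul_add, mul_sum]
    congr 1
    congr 1
    · exact sum_congr rfl fun j _ => by ring
    · ring
  rw [hS, hperron, mul_smul_comm, ← integral_const_mul, hint, smul_add, smul_add, smul_sum,
    ← lineInt, lineInt_shift (fun _ h => differentiableAt_tailFn hH hc h) hκ
    (fun u v a b => hG u v a (by linarith)) hx.le hc2, range_eq_Ico, sum_eq_sum_Ico_succ_bot hk]
  congr 1
  rw [add_sub_right_comm, add_comm]
  congr 1
  · rw [hT0]
    simp only [hw]
    rw [integral_const_mul, ← mul_smul_comm, upPair_inversion hx]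
    push_cast
    rw [Nat.factorial_zero, Nat.cast_one, pow_zero]
    ring
  · refine sum_congr rfl fun j hj => ?_
    rw [hT1]
    simp only [hw]
    rw [integral_const_mul, ← mul_smul_comm, upLog_inversion (Finset.mem_Ico.1 hj).1 hx]

end line

theorem exists_eval_le (R : ℝ[X]) {N : ℕ} (hN : R.natDegree ≤ N) :
    ∃ C, 0 ≤ C ∧ ∀ L : ℝ, 0 ≤ L → |R.eval L| ≤ C * (1 + L) ^ N := by
  refine ⟨∑ i ∈ range (R.natDegree + 1), |R.coeff i|, sum_nonneg fun i _ => abs_nonneg _,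
    fun L hL => ?_⟩
  rw [Polynomial.eval_eq_sum_range, sum_mul]
  refine (abs_sum_le_sum_abs _ _).trans (sum_le_sum fun i hi => ?_)
  rw [abs_mul, abs_of_nonneg (pow_nonneg hL i)]
  refine mul_le_mul_of_nonneg_left ((pow_le_pow_left₀ hL (by linarith) i).trans
    (pow_le_pow_right₀ (by linarith) ?_)) (abs_nonneg _)
  have := mem_range.1 hi
  omega

/-- The real main term before differentiation. -/
def mainPoly (k : ℕ) (q : ℕ → ℂ) : ℝ[X] :=
  ∑ j ∈ range k, Polynomial.C ((q j).re / j !) * X ^ j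

theorem mainPoly_natDegree_le (k : ℕ) (q : ℕ → ℂ) : (mainPoly k q).natDegree ≤ k - 1 :=
  natDegree_sum_le_of_forall_le _ _ fun j hj =>
    (natDegree_C_mul_X_pow_le _ _).trans (by have := mem_range.1 hj; omega)

theorem mainPoly_coeff {k : ℕ} (q : ℕ → ℂ) {i : ℕ} (hi : i < k) :
    (mainPoly k q).coeff i = (q i).re / i ! := by
  rw [mainPoly, finsetSum_coeff, sum_eq_single i]
  · simp [coeff_C_mul, coeff_X_pow]
  · intro j _ hj
    simp [coeff_C_mul, coeff_X_pow, Ne.symm hj]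
  · intro h
    exact absurd (mem_range.2 hi) h

/-- **The error in the divisor problem of Piltz.** -/
theorem exists_piltz_error {k : ℕ} (hk : 1 ≤ k) :
    ∃ P : ℝ[X], P.natDegree = k - 1 ∧ P.leadingCoeff = 1 / (k - 1)! ∧
      ∀ c η l ε : ℝ, 1 / 2 ≤ c → c ≤ 1 → 0 < η → k * η ≤ 1 / 2 → 1 / 2 ≤ l → l < 1 → 0 < ε →
        (∃ C : ℝ, ∀ u v : ℝ, c ≤ u → u ≤ 4 → 1 ≤ |v| →
          ‖riemannZeta ((u : ℂ) + v * I)‖ ≤ C * |v| ^ η) →
        ∃ C : ℝ, ∀ x : ℝ, 2 ≤ x → |piltzSum k x - x * P.eval (Real.log x)| ≤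
          C * x ^ max (l + ε) (c + 2 * (k * η) * (1 - l)) := by
  obtain ⟨q, H, hH, hq, he⟩ := exists_zeta_principal k
  obtain ⟨Q, hQ⟩ : ∃ Q, Q = mainPoly k q := ⟨_, rfl⟩
  obtain ⟨P, hP⟩ : ∃ P, P = 2 * Q + derivative Q := ⟨_, rfl⟩
  have hdeg : P.natDegree ≤ k - 1 := by
    rw [hP]
    refine (natDegree_add_le _ _).trans (max_le ?_ ?_)
    · refine natDegree_mul_le.trans ?_
      rw [show (2 : ℝ[X]) = Polynomial.C 2 from (map_ofNat Polynomial.C 2).symm, natDegree_C,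
        zero_add]
      exact hQ ▸ mainPoly_natDegree_le k q
    · exact (natDegree_derivative_le _).trans
        ((Nat.sub_le _ _).trans (hQ ▸ mainPoly_natDegree_le k q))
  have hlead : P.coeff (k - 1) = 1 / (k - 1)! := by
    rw [hP, coeff_add, coeff_derivative, two_mul, coeff_add, hQ,
      mainPoly_coeff q (show k - 1 < k by omega), hq hk,
      coeff_eq_zero_of_natDegree_lt ((mainPoly_natDegree_le k q).trans_lt (Nat.lt_succ_self _))]
    norm_num
    ring
  have hdeq : P.natDegree = k - 1 :=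
    natDegree_eq_of_le_of_coeff_ne_zero hdeg (by rw [hlead]; positivity)
  refine ⟨P, hdeq, by rw [leadingCoeff, hdeq, hlead],
    fun c η l ε hc hc1 hη hκ hl hl1 hε hb => ?_⟩
  have hκ0 : 0 < (k : ℝ) * η := mul_pos (Nat.cast_pos.2 hk) hη
  obtain ⟨CG, hCG, hG⟩ := exists_tailFn_le hk hH he hc hη.le hκ hb
  obtain ⟨KE, hKEdef⟩ : ∃ KE, KE = 16 * CG / ((k : ℝ) * η) := ⟨_, rfl⟩
  have hKE : 0 ≤ KE := hKEdef ▸ by positivity
  have hdiff : ∀ y h : ℝ, 1 ≤ y → 0 < h → h ≤ y →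
      ‖tailInt (q 0) H c (y + h) - tailInt (q 0) H c y‖ ≤
        KE * h * (y ^ c * (y / h) ^ (2 * ((k : ℝ) * η))) := fun y h hy hh hhy => hKEdef ▸
    lineInt_diff (fun _ w => differentiableAt_tailFn (q := q) hH hc w) hκ
      (fun u v a b => hG u v a (by linarith)) hc hc1 hκ0 hCG hy hh hhy
  obtain ⟨Cp, hCp, hpe⟩ := exists_eval_le (P + derivative P) (N := k)
    ((natDegree_add_le _ _).trans
      (max_le (by omega) ((natDegree_derivative_le _).trans (by omega))))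
  obtain ⟨Cq, hCq, hqe⟩ := exists_eval_le P (N := k) (by omega)
  -- the difference quotient
  have hstep : ∀ y h u : ℝ, 1 < y → 0 < h → h ≤ y → y ≤ u → u ≤ y + h →
      |(piltzRiesz k (y + h) - piltzRiesz k y) - h * (u * P.eval (Real.log u))| ≤
        Cp * h ^ 2 * (1 + Real.log (2 * y)) ^ k +
          KE * h * (y ^ c * (y / h) ^ (2 * ((k : ℝ) * η))) := by
    intro y h u hy hh hhy hyu huy
    have hre : ∀ x, 1 < x → piltzRiesz k x =
        x ^ 2 * Q.eval (Real.log x) - (q 0).re + (tailInt (q 0) H c x).re := fun x hx => by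
      have e := congrArg Complex.re (piltzRiesz_eq hH hc hκ hG hk (by linarith) he hx)
      rw [ofReal_re, add_re, sub_re, Complex.re_sum] at e
      rw [e, hQ, mainPoly, eval_finsetSum, mul_sum]
      congr 2
      refine sum_congr rfl fun j _ => ?_
      rw [re_mul_ofReal, eval_mul, eval_C, eval_pow, eval_X]
      ring
    obtain ⟨W, hW⟩ : ∃ W : ℝ → ℝ, W = fun x => x ^ 2 * Q.eval (Real.log x) := ⟨_, rfl⟩
    have hWd : ∀ x, 0 < x → HasDerivAt W (x * P.eval (Real.log x)) x := fun x hx => by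
      rw [hW]
      refine ((hasDerivAt_pow 2 x).fun_mul
        ((Q.hasDerivAt _).comp x (Real.hasDerivAt_log hx.ne'))).congr_deriv ?_
      rw [hP, eval_add, eval_mul, eval_ofNat]
      simp only [Nat.cast_ofNat, Function.comp_apply]
      field_simp
      ring
    have hWd2 : ∀ x, 0 < x → HasDerivAt (fun x => x * P.eval (Real.log x))
        ((P + derivative P).eval (Real.log x)) x := fun x hx => by
      refine ((hasDerivAt_id' x).fun_mul
        ((P.hasDerivAt _).comp x (Real.hasDerivAt_log hx.ne'))).congr_deriv ?_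
      rw [eval_add]
      simp only [Function.comp_apply]
      field_simp
    obtain ⟨ξ, hξ, hξe⟩ := exists_hasDerivAt_eq_slope W (fun x => x * P.eval (Real.log x))
      (show y < y + h by linarith)
      (fun x hx => (hWd x (by linarith [hx.1])).continuousAt.continuousWithinAt)
      fun x hx => hWd x (by linarith [hx.1])
    rw [add_sub_cancel_left, eq_div_iff hh.ne'] at hξe
    have hM : |ξ * P.eval (Real.log ξ) - u * P.eval (Real.log u)| ≤
        Cp * (1 + Real.log (2 * y)) ^ k * h := by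
      have := (convex_Icc y (y + h)).norm_image_sub_le_of_norm_hasDerivWithin_le
        (f := fun x => x * P.eval (Real.log x)) (fun x hx => (hWd2 x (by
          linarith [hx.1])).hasDerivWithinAt) (C := Cp * (1 + Real.log (2 * y)) ^ k) (fun x hx => by
          have hx0 : 1 ≤ x := by linarith [hx.1]
          refine (hpe _ (Real.log_nonneg hx0)).trans (mul_le_mul_of_nonneg_left ?_ hCp)
          exact pow_le_pow_left₀ (by linarith [Real.log_nonneg hx0]) (add_le_add le_rfl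
            (Real.log_le_log (by linarith) (by linarith [hx.2]))) k)
        (show u ∈ Set.Icc y (y + h) from ⟨hyu, huy⟩) (Set.Ioo_subset_Icc_self hξ)
      rw [Real.norm_eq_abs, Real.norm_eq_abs] at this
      refine this.trans (mul_le_mul_of_nonneg_left (abs_le.2 ?_) ?_)
      · exact ⟨by linarith [hξ.1], by linarith [hξ.2]⟩
      · exact mul_nonneg hCp (pow_nonneg
          (by linarith [Real.log_nonneg (show 1 ≤ 2 * y by linarith)]) k)
    have hE : |(tailInt (q 0) H c (y + h)).re - (tailInt (q 0) H c y).re| ≤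
        KE * h * (y ^ c * (y / h) ^ (2 * ((k : ℝ) * η))) := by
      rw [← sub_re]
      exact (Complex.abs_re_le_norm _).trans (hdiff y h hy.le hh hhy)
    have hWW : |W (y + h) - W y - h * (u * P.eval (Real.log u))| ≤
        Cp * h ^ 2 * (1 + Real.log (2 * y)) ^ k := by
      rw [← hξe, mul_comm _ h, ← mul_sub, abs_mul, abs_of_pos hh]
      refine (mul_le_mul_of_nonneg_left hM hh.le).trans (le_of_eq (by ring))
    rw [hre _ (by linarith), hre _ hy, show
      ((y + h) ^ 2 * Q.eval (Real.log (y + h)) - (q 0).re + (tailInt (q 0) H c (y + h)).re -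
        (y ^ 2 * Q.eval (Real.log y) - (q 0).re + (tailInt (q 0) H c y).re)) -
          h * (u * P.eval (Real.log u)) =
      (W (y + h) - W y - h * (u * P.eval (Real.log u))) +
        ((tailInt (q 0) H c (y + h)).re - (tailInt (q 0) H c y).re) by rw [hW]; ring]
    exact (abs_add_le _ _).trans (add_le_add hWW hE)
  -- the sandwich
  obtain ⟨e, hee⟩ : ∃ e, e = max (l + ε) (c + 2 * (k * η) * (1 - l)) := ⟨_, rfl⟩
  rw [← hee]
  obtain ⟨X₀, hX₀⟩ : ∃ X₀ : ℝ, X₀ = (2 : ℝ) ^ (1 / (1 - l)) := ⟨_, rfl⟩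
  obtain ⟨B, hB⟩ : ∃ B, B = piltzSum k X₀ + X₀ * (Cq * (1 + |Real.log X₀|) ^ k) := ⟨_, rfl⟩
  obtain ⟨d, hd⟩ : ∃ d, d = ε / (k : ℝ) := ⟨_, rfl⟩
  have hd0 : 0 < d := hd ▸ by positivity
  refine ⟨|B| + (Cp * (2 + 1 / d) ^ k + KE), fun x hx => ?_⟩
  have hx0 : 0 < x := by linarith
  have hx1 : 1 ≤ x := by linarith
  have he0 : 0 ≤ e := by rw [hee]; exact le_max_of_le_left (by linarith)
  have hxe : 1 ≤ x ^ e := Real.one_le_rpow hx1 he0
  rcases lt_or_ge x X₀ with hsmall | hlarge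
  · have h1 : |piltzSum k x - x * P.eval (Real.log x)| ≤ B := by
      refine (abs_sub _ _).trans ?_
      rw [hB, abs_of_nonneg (piltzSum_nonneg k x), abs_mul, abs_of_pos hx0]
      refine add_le_add (piltzSum_mono k hsmall.le) (mul_le_mul hsmall.le
        ((hqe _ (Real.log_nonneg hx1)).trans (mul_le_mul_of_nonneg_left (pow_le_pow_left₀
          (by linarith [Real.log_nonneg hx1]) (add_le_add le_rfl
            ((Real.log_le_log hx0 hsmall.le).trans (le_abs_self _))) k) hCq))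
        (abs_nonneg _) (by linarith))
    have h2 : 0 ≤ Cp * (2 + 1 / d) ^ k + KE := by positivity
    nlinarith [le_abs_self B, abs_nonneg B]
  obtain ⟨h, hh⟩ : ∃ h, h = x ^ l := ⟨_, rfl⟩
  have hh0 : 0 < h := hh ▸ Real.rpow_pos_of_pos hx0 _
  have hxh : x / h = x ^ (1 - l) := by rw [hh, Real.rpow_sub hx0, Real.rpow_one]
  have h2h : 2 * h ≤ x := by
    have h2 : 2 ≤ x / h := by
      rw [hxh]
      refine le_trans (le_of_eq ?_) (Real.rpow_le_rpow (hX₀ ▸ by positivity) hlarge (by linarith))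
      rw [hX₀, ← Real.rpow_mul two_pos.le, one_div_mul_cancel (by linarith), Real.rpow_one]
    rwa [le_div_iff₀ hh0] at h2
  have hhone : 1 < h := hh ▸ Real.one_lt_rpow (by linarith) (by linarith)
  obtain ⟨R, hR⟩ : ∃ R, R = Cp * h * (1 + Real.log (2 * x)) ^ k +
      KE * (x ^ c * (x / h) ^ (2 * ((k : ℝ) * η))) := ⟨_, rfl⟩
  have hup : piltzSum k x - x * P.eval (Real.log x) ≤ R := by
    have h1 := (piltzRiesz_sub (k := k) hx0.le (show x ≤ x + h by linarith)).1
    have h2 := (abs_le.1 (hstep x h x (by linarith) hh0 (by linarith) le_rfl (by linarith))).2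
    rw [add_sub_cancel_left] at h1
    refine le_of_mul_le_mul_left ?_ hh0
    rw [hR]
    linarith
  have hlow : x * P.eval (Real.log x) - piltzSum k x ≤ R := by
    obtain ⟨y, hy⟩ : ∃ y, y = x - h := ⟨_, rfl⟩
    have h1 := (piltzRiesz_sub (k := k) (show 0 ≤ y by linarith) (show y ≤ x by linarith)).2
    have h2 := (abs_le.1 (hstep y h x (by linarith) hh0 (by linarith) (by linarith)
      (by linarith))).1
    rw [show x - y = h by rw [hy]; ring] at h1
    rw [show y + h = x by rw [hy]; ring] at h2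
    have h3 : Cp * h ^ 2 * (1 + Real.log (2 * y)) ^ k +
        KE * h * (y ^ c * (y / h) ^ (2 * ((k : ℝ) * η))) ≤ h * R := by
      rw [hR, mul_add]
      refine add_le_add ?_ ?_
      · rw [show h * (Cp * h * (1 + Real.log (2 * x)) ^ k) =
          Cp * h ^ 2 * (1 + Real.log (2 * x)) ^ k by ring]
        gcongr
        · linarith [Real.log_nonneg (show 1 ≤ 2 * y by linarith)]
        · linarith
        · linarith
      · rw [show h * (KE * (x ^ c * (x / h) ^ (2 * ((k : ℝ) * η)))) =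
          KE * h * (x ^ c * (x / h) ^ (2 * ((k : ℝ) * η))) by ring]
        have : 0 ≤ y := by linarith
        gcongr <;> linarith
    refine le_of_mul_le_mul_left ?_ hh0
    linarith
  refine (abs_le.2 ⟨by linarith, hup⟩).trans ?_
  have a1 : h * (1 + Real.log (2 * x)) ^ k ≤ (2 + 1 / d) ^ k * x ^ e := by
    have hlog : 1 + Real.log (2 * x) ≤ (2 + 1 / d) * x ^ d := by
      rw [Real.log_mul two_ne_zero hx0.ne']
      have h3 := Real.log_le_rpow_div hx0.le hd0
      have h4 : 1 ≤ x ^ d := Real.one_le_rpow hx1 hd0.le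
      have := Real.log_two_lt_d9
      rw [add_mul, show 1 / d * x ^ d = x ^ d / d by ring]
      linarith
    calc h * (1 + Real.log (2 * x)) ^ k ≤ h * ((2 + 1 / d) * x ^ d) ^ k :=
          mul_le_mul_of_nonneg_left (pow_le_pow_left₀
            (by linarith [Real.log_nonneg (show 1 ≤ 2 * x by linarith)]) hlog k) hh0.le
      _ = (2 + 1 / d) ^ k * x ^ (l + ε) := by
          rw [hh, mul_pow, ← Real.rpow_mul_natCast hx0.le, Real.rpow_add hx0,
            show d * (k : ℝ) = ε by rw [hd, div_mul_cancel₀ _ (Nat.cast_pos.2 hk).ne']]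
          ring
      _ ≤ _ := mul_le_mul_of_nonneg_left (Real.rpow_le_rpow_of_exponent_le hx1
          (hee ▸ le_max_left _ _)) (by positivity)
  have a2 : x ^ c * (x / h) ^ (2 * ((k : ℝ) * η)) ≤ x ^ e := by
    rw [hxh, ← Real.rpow_mul hx0.le, ← Real.rpow_add hx0]
    exact Real.rpow_le_rpow_of_exponent_le hx1 (hee ▸ le_trans (le_of_eq (by ring))
      (le_max_right _ _))
  rw [hR, add_mul, add_mul, mul_assoc Cp h, mul_assoc Cp ((2 + 1 / d) ^ k)]
  have b1 := mul_le_mul_of_nonneg_left a1 hCp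
  have b2 := mul_le_mul_of_nonneg_left a2 hKE
  linarith [mul_nonneg (abs_nonneg B) (zero_le_one.trans hxe)]

end FA.PiltzDivisor

end
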