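import Fermat.Agent.PiltzDivisor.Converse
import Fermat.Agent.LindelofBacklund.Count

/-!
# The divisor problem of Piltz

`∑_{n ≤ x} d_k n = x P (log x) + O (x ^ (1 - 1/(32 k)))` with `deg P = k - 1`; and the exponent
`1/2 + ε` for every `k` is the hypothesis of Lindelöf.
-/

set_option autoImplicit false

noncomputable section

namespace FA.PiltzDivisor

open Complex Filter Polynomial
open FA.Backlund (LineBound ClearedBound norm_zeta_le_of_cleared exists_strip_le)
open scoped Topology Real Nat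

/-- A small power bounds `ζ` a little left of the line `re s = 1`. -/
theorem exists_zeta_left_bound {δ : ℝ} (hδ : 0 < δ) (hδ4 : δ ≤ 1 / 4) :
    ∃ C : ℝ, ∀ u v : ℝ, 1 - δ ≤ u → u ≤ 4 → 1 ≤ |v| →
      ‖riemannZeta ((u : ℂ) + v * I)‖ ≤ C * |v| ^ (4 * δ) := by
  have hL : LineBound (1 / 2) 1 := ⟨20, fun v hv => by
    refine (FA.DLVP.norm_zeta_crude (by simp; norm_num) (by simp; norm_num)
      (by simpa using hv)).trans ?_
    rw [Real.rpow_one]
    simp
    linarith⟩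
  have hR : LineBound (1 + δ) 0 := ⟨‖riemannZeta ((1 + δ : ℝ) : ℂ)‖, fun v _ => by
    rw [Real.rpow_zero, mul_one]
    exact FA.DLVP.norm_zeta_le_real (by linarith) (by simp)⟩
  obtain ⟨A, hA, hA'⟩ := (hL.cleared zero_le_one (by norm_num)).interp
    (hR.cleared le_rfl (by rw [abs_of_pos (by linarith)]; linarith)) (by linarith) (by norm_num)
    (by linarith) (by norm_num) (by norm_num)
  obtain ⟨K, hK⟩ := (isCompact_Icc (a := 1 + δ) (b := (4 : ℝ))).exists_bound_of_continuousOn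
    (f := fun u : ℝ => riemannZeta (u : ℂ)) fun u hu =>
      (ContinuousAt.comp (g := riemannZeta) (differentiableAt_riemannZeta (fun h => by
        have := congrArg Complex.re h
        simp at this
        linarith [hu.1])).continuousAt Complex.continuous_ofReal.continuousAt).continuousWithinAt
  refine ⟨max (A * 4 ^ (4 * δ + 1)) (max K 0), fun u v hu hu4 hv => ?_⟩
  have hv0 : 0 ≤ |v| ^ (4 * δ) := Real.rpow_nonneg (abs_nonneg v) _
  rcases le_or_gt u (1 + δ) with hub | hub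
  · refine (norm_zeta_le_of_cleared hA (by linarith) hv ((hA' u v (by linarith) hub).trans
      (mul_le_mul_of_nonneg_left (Real.rpow_le_rpow_of_exponent_le
        (by linarith [abs_nonneg v]) ?_) hA))).trans
      (mul_le_mul_of_nonneg_right (le_max_left _ _) hv0)
    obtain ⟨w, hw⟩ : ∃ w : ℝ, w = (u - 1 / 2) / (1 + δ - 1 / 2) := ⟨_, rfl⟩
    rw [← hw]
    have hw2 : 1 - w ≤ 4 * δ := by
      rw [hw, one_sub_div (by linarith), div_le_iff₀ (by linarith)]
      nlinarith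
    linarith
  · refine ((FA.DLVP.norm_zeta_le_real (σ := u) (by linarith) (by simp)).trans
      ((hK u ⟨hub.le, hu4⟩).trans
        ((le_max_left K 0).trans (le_max_right (A * 4 ^ (4 * δ + 1)) _)))).trans ?_
    exact le_mul_of_one_le_right (le_max_of_le_right (le_max_right _ _))
      (Real.one_le_rpow hv (by linarith))

/-- **The theorem of Piltz's problem**: the power saving, and `1/2 + ε` from Lindelöf. -/
theorem exists_piltz_main {k : ℕ} (hk : 1 ≤ k) :
    ∃ P : ℝ[X], P.natDegree = k - 1 ∧ P.leadingCoeff = 1 / (k - 1)! ∧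
      (∃ C : ℝ, ∀ x : ℝ, 2 ≤ x →
        |piltzSum k x - x * P.eval (Real.log x)| ≤ C * x ^ (1 - 1 / (32 * (k : ℝ)))) ∧
      ((∀ ε : ℝ, 0 < ε → LineBound (1 / 2) ε) → ∀ ε : ℝ, 0 < ε → ∃ C : ℝ, ∀ x : ℝ, 2 ≤ x →
        |piltzSum k x - x * P.eval (Real.log x)| ≤ C * x ^ (1 / 2 + ε)) := by
  obtain ⟨P, hd, hl, hP⟩ := exists_piltz_error hk
  refine ⟨P, hd, hl, ?_, fun hLH ε hε => ?_⟩
  · have hk1 : (1 : ℝ) ≤ k := Nat.one_le_cast.2 hk
    obtain ⟨δ, hδ⟩ : ∃ δ : ℝ, δ = 1 / (16 * k) := ⟨_, rfl⟩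
    have hδ0 : 0 < δ := hδ ▸ by positivity
    have hδ16 : δ ≤ 1 / 16 := hδ ▸ one_div_le_one_div_of_le (by norm_num) (by linarith)
    have hkδ : (k : ℝ) * (4 * δ) = 1 / 4 := by rw [hδ]; field_simp; ring
    obtain ⟨C, hC⟩ := hP (1 - δ) (4 * δ) (1 - δ) (δ / 2) (by linarith) (by linarith) (by linarith)
      (by linarith) (by linarith) (by linarith) (by linarith)
      (exists_zeta_left_bound hδ0 (by linarith))
    refine ⟨C, fun x hx => (hC x hx).trans (le_of_eq ?_)⟩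
    rw [hkδ, show 1 - δ + δ / 2 = 1 - δ / 2 by ring,
      show 1 - δ + 2 * (1 / 4) * (1 - (1 - δ)) = 1 - δ / 2 by ring, max_self,
      show δ / 2 = 1 / (32 * (k : ℝ)) by rw [hδ]; field_simp; ring]
  · obtain ⟨η, hη⟩ : ∃ η : ℝ, η = min ε (1 / 2) / k := ⟨_, rfl⟩
    have hk0 : (0 : ℝ) < k := Nat.cast_pos.2 hk
    have hη0 : 0 < η := hη ▸ div_pos (lt_min hε (by norm_num)) hk0
    have hkη : (k : ℝ) * η = min ε (1 / 2) := by rw [hη, mul_div_cancel₀ _ hk0.ne']
    obtain ⟨A, -, hA⟩ := exists_strip_le hLH hη0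
    obtain ⟨C, hC⟩ := hP (1 / 2) η (1 / 2) ε le_rfl (by norm_num) hη0
      (hkη ▸ min_le_right _ _) le_rfl (by norm_num) hε ⟨A, hA⟩
    refine ⟨max C 0, fun x hx => (hC x hx).trans (mul_le_mul (le_max_left C 0)
      (Real.rpow_le_rpow_of_exponent_le (by linarith) (max_le le_rfl ?_))
      (Real.rpow_nonneg (by linarith) _) (le_max_right C 0))⟩
    rw [hkη]
    linarith [min_le_left ε (1 / 2)]

/-- **The hypothesis of Lindelöf is the conjecture of Piltz's problem.** -/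
theorem lindelof_iff_piltz :
    (∀ ε : ℝ, 0 < ε → LineBound (1 / 2) ε) ↔
      ∀ k : ℕ, 1 ≤ k → ∃ P : ℝ[X], ∀ ε : ℝ, 0 < ε → ∃ C : ℝ, ∀ x : ℝ, 2 ≤ x →
        |piltzSum k x - x * P.eval (Real.log x)| ≤ C * x ^ (1 / 2 + ε) := by
  refine ⟨fun hLH k hk => ?_, fun h ε hε => lindelof_of_piltz h hε⟩
  obtain ⟨P, -, -, -, hP⟩ := exists_piltz_main hk
  exact ⟨P, hP hLH⟩

end FA.PiltzDivisor

end
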